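import Mathlib
import Fermat.Agent.LT.T7.Level2

/-!
# Row LT, tower T7, NODE T7.L2.3 `SpecDownC` -- THE CUT, level 1 (sub-architect helper534)

OFF-MAIN.  Definitions, frozen Props and the PROVED top `specDownC_of534`.
No hole, no opaque constant, nothing assumed.  ADDITIVE (new names only).
Vocabulary: `LT/T7/Level2.lean` (helper797@819237e8b, sha256 1551664660339642), byte-identical.

    SpecDownC K K'  ⟸  StfIdC K + IwSysC K + BCDataC K K' + ResDegC K K' + BCUnitC K K'
                          + DownBasisC K K'                          (`specDownC_of534`)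

## The idea: NO generalised eigenspaces, NO trace norm

* The sequence `e` is CHOSEN (the node is existential in `e`): it is adapted to `W ⊕ W^⊥`
  (`W` = the invariant cusp functions `IsWFn`), and inside `W` it is a SCHUR basis of every
  eigen-class for the commuting operators `Z`, `𝒰`, `B = R(f g [] 0 0)`: all three are upper
  triangular in an orthonormal basis, so the diagonal coefficient of `B Z^k 𝒰^m` at `e i` is
  `x_i b_i^k l_i^m` with `x_i, b_i, l_i` the diagonal entries.  The atoms are the members of the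
  basis themselves (`ι` = the indices of the `W`-part).
* Summability of `x_i = ⟨B e_i, e_i⟩` is the first conclusion of `T5.STFsigma` for `σ = id`
  (closed tower T5) applied to `f g [] 0 0 = φ₁ ⋆ φ₂`.
* Outside the `W`-part the diagonal coefficients vanish by `IsL2Data.kill_down`.
* `IsL2Data.op_down` gives `R(f g X k m) e_i = X(Ĉ_i) B Z^k 𝒰^m e_i`, `Ĉ_i` ANY base change datum
  of the eigen-data `c_i` of `e_i` (`BCDataC`: it exists; `BCUnitC`: it is unitary).
* Realisation: `e_i` itself is the cusp form of A0.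

## The leaves

* `StfIdC K`     : `T5.STFsigma (T5.AdelicAut.id K) 𝔫 T5.trivType` for every level (tower T5).
* `IwSysC K`     : an Iwahori coset system and a scalar uniformiser exist at every place.
* `BCDataC K K'` : every eigen-datum over `K` has a base change datum outside `S'`.
* `ResDegC K K'` : every finite place of `K'` lies over a place of `K`, with a residue degree.
* `BCUnitC K K'` : the base change of a unitary datum is unitary.
* `DownBasisC K K'` (NODE, cut in `DownBasisSpec.lean`): the adapted Schur sequence exists.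
-/

set_option autoImplicit false
set_option linter.unusedSectionVars false
set_option linter.unusedVariables false

open AutomorphicForm IsDedekindDomain NumberField MeasureTheory
open scoped ComplexConjugate

noncomputable section

namespace Fermat.Agent.LT.T7.SD534

open Fermat.Agent.LT.H556 Fermat.Agent.LT.H556.A0 Fermat.Agent.LT.T7

attribute [local instance] Fermat.Agent.LT.T5.instMeasurableSpaceG

section Defs

variable {K K' : Type} [Field K] [NumberField K] [Field K'] [NumberField K'] [Algebra K K']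

/-- The eigen-datum `c` is UNITARY outside the level `𝔫` (the relations of `T2.IsCuspBasis`,
`T2.IsCuspBasisPlus`). -/
def IsUnitOut (𝔫 : Ideal (𝓞 K)) (c : EigData K) : Prop :=
  (∀ v : HeightOneSpectrum (𝓞 K), ¬ v.asIdeal ∣ 𝔫 →
      ‖c.b v‖ = 1 ∧ conj (c.a v) = c.a v * conj (c.b v) ∧
      ‖c.a v‖ * Real.sqrt (Ideal.absNorm v.asIdeal : ℝ) ≤ (Ideal.absNorm v.asIdeal : ℝ) + 1) ∧
    ∀ (w : InfinitePlace K) (d : ℝ), 0 < d → (c.m w d).im = 0 ∧ ‖c.m w d‖ ≤ 4 * Real.pi

/-- **THE ADAPTED SCHUR SEQUENCE** for the bad element `g`, the Iwahori coset system `H` and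
the scalar uniformiser `z` at the regular place `u`.

* `e` is a complete orthonormal sequence of cusp functions of level `𝔫 g` (zero vectors allowed);
* `I` = the indices of the `W`-part; for `i ∉ I` the member `e i` is orthogonal to `W`;
* for `i ∈ I` the member `e i` is a nonzero invariant cusp function with joint eigen-data `c i`
  (unitary outside `𝔫 g`), and the diagonal coefficient of `B Z^k 𝒰^m` at `e i` is
  `x i * b i ^ k * l i ^ m`, with `(b i, l i)` as in `IsRegParam R`. -/
structure IsDownBasis (Dt : L2Data K K') (g : G K') (H : Finset (G K)) (z : G K)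
    (e : ℕ → G K → ℂ) (I : Set ℕ) (c : ℕ → EigData K) (b l x : ℕ → ℂ) (R : ℝ) : Prop where
  onb : T5.IsCuspONB (Dt.𝔫 g) T5.trivType Dt.R.r Dt.R.μ Dt.R.F e
  perp : ∀ i, i ∉ I → ∀ χ : G K → ℂ, IsWFn (Dt.𝔫 g) Dt.R.r 1 (fun _ => Dt.u) χ →
    T5.innerD Dt.R.μ Dt.R.F (e i) χ = 0
  eig : ∀ i, i ∈ I → IsEigFn (Dt.𝔫 g) Dt.R.r 1 (fun _ => Dt.u) (e i) (c i)
  ne : ∀ i, i ∈ I → ∃ y : G K, e i y ≠ 0
  unit : ∀ i, i ∈ I → IsUnitOut (Dt.𝔫 g) (c i)
  tri : ∀ i, i ∈ I → ∀ (k : ℤ) (m : ℕ),
    T5.innerD Dt.R.μ Dt.R.F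
        (T5.Rconv Dt.R.μ (Dt.f g [] 0 0) (shiftOp z k ((iwOp Dt.u H)^[m] (e i)))) (e i)
      = x i * b i ^ k * l i ^ m
  reg : ∀ i, i ∈ I → IsRegParam R (b i) (l i)

end Defs

/-! ## The leaves -/

section Leaves

variable (K K' : Type) [Field K] [NumberField K] [Field K'] [NumberField K'] [Algebra K K']

/-- **SD.1 (tower T5, closed).**  The trace identity of T5 for `σ = id`, trivial `K_∞`-type,
every level. -/
def StfIdC : Prop :=
  ∀ 𝔫 : Ideal (𝓞 K), 𝔫 ≠ ⊥ → T5.STFsigma (T5.AdelicAut.id K) 𝔫 T5.trivType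

/-- **SD.2 (local, elementary).**  At every finite place there are an Iwahori coset system
(`q` representatives of `I diag(ϖ,1) I / I`: the matrices `[[ϖ, a], [0, 1]]`, `a` a system of
representatives of `𝒪/ϖ`, at the place and `1` elsewhere) and a scalar uniformiser. -/
def IwSysC : Prop :=
  ∀ u : HeightOneSpectrum (𝓞 K),
    (∃ H : Finset (G K), IsIwCosetSystem u H) ∧ ∃ z : G K, IsScalarUniformizerAt u z

/-- **SD.3 (algebra).**  Every eigen-datum over `K` has a base change datum over `K'` outside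
`S'` (choice of the place below and of the residue degree; they are unique: `PlaceOver`
determines `v`, and `N w = (N v)^f` with `N v ≥ 2` determines `f`). -/
def BCDataC : Prop :=
  ∀ (S' : Finset (HeightOneSpectrum (𝓞 K'))) (c : EigData K), ∃ C : EigData K', IsBCData c C S'

/-- **SD.6 (algebraic number theory, Mathlib).**  Every finite place `w` of `K'` lies over a
finite place `v` of `K` and `N w = (N v)^f` (`v = w ∩ 𝒪_K`, `f` = the inertia degree;
`K'/K` finite). -/
def ResDegC : Prop :=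
  FiniteDimensional K K' →
    ∀ w : HeightOneSpectrum (𝓞 K'), ∃ (v : HeightOneSpectrum (𝓞 K)) (f : ℕ), HasResDeg K K' v w f

/-- **SD.4 (algebra).**  The base change of a datum which is unitary outside `𝔫` is unitary
outside `S'`, if every place outside `S'` lies over places prime to `𝔫` only.
(`|b^f| = 1`; with `a = α + β`, `b = α β`: `conj α = α⁻¹` or `conj α = β⁻¹`... in both cases
`conj (α^f + β^f) = (α^f + β^f) conj (b^f)` and `|α|, |β| ≤ √q`, so
`|α^f + β^f| √(q^f) ≤ q^f + 1`; archimedean part: the same functions.) -/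
def BCUnitC : Prop :=
  ∀ (S' : Finset (HeightOneSpectrum (𝓞 K'))) (𝔫 : Ideal (𝓞 K)) (c : EigData K) (C : EigData K'),
    (∀ w : HeightOneSpectrum (𝓞 K'), w ∉ S' → ∀ v : HeightOneSpectrum (𝓞 K),
      PlaceOver K K' v w → ¬ v.asIdeal ∣ 𝔫) →
    (∀ w : HeightOneSpectrum (𝓞 K'), ∃ (v : HeightOneSpectrum (𝓞 K)) (f : ℕ),
      HasResDeg K K' v w f) →
    IsUnitOut 𝔫 c → IsBCData c C S' → C.IsUnitaryOut S'

/-- **SD.5 = NODE DOWN-BASIS.**  The adapted Schur sequence exists, for every Iwahori coset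
system and every scalar uniformiser at the regular place. -/
def DownBasisC : Prop :=
  ∀ ℓ : ℕ, IsCycExt K K' ℓ → ℓ ≠ 2 → TotCplx K →
    ∀ Φ : HeckeEigensystem K' ℂ, A0.IsCuspAdelicSph0 K' Φ → ConstOnFibres K Φ →
      ∀ Dt : L2Data K K', IsL2Data ℓ Φ Dt → ∀ g : G K', Dt.IsBad g →
      ∀ (H : Finset (G K)) (z : G K), IsIwCosetSystem Dt.u H → IsScalarUniformizerAt Dt.u z →
        ∃ (e : ℕ → G K → ℂ) (I : Set ℕ) (c : ℕ → EigData K) (b l x : ℕ → ℂ) (R : ℝ),
          IsDownBasis Dt g H z e I c b l x R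

end Leaves

/-! ## The top -/

section Top

variable {K K' : Type} [Field K] [NumberField K] [Field K'] [NumberField K'] [Algebra K K']

theorem rsig_id534 (e : G K → ℂ) : T5.Rsig (T5.AdelicAut.id K) e = e := by
  funext x
  unfold T5.Rsig
  rw [T5.onGinv_id]

theorem diagCoeff_id534 (μ : Measure (G K)) (F : Set (G K)) (φ e : G K → ℂ) :
    T5.diagCoeff (T5.AdelicAut.id K) μ F φ e = T5.innerD μ F (T5.Rconv μ φ e) e := by
  unfold T5.diagCoeff
  rw [rsig_id534]

theorem innerD_zero_left534 (μ : Measure (G K)) (F : Set (G K)) (h e : G K → ℂ)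
    (h0 : ∀ x, h x = 0) : T5.innerD μ F h e = 0 := by
  unfold T5.innerD
  have : (fun x => h x * conj (e x)) = fun _ => (0 : ℂ) := by
    funext x
    rw [h0 x, zero_mul]
  rw [this]
  simp

theorem innerD_const_mul534 (μ : Measure (G K)) (F : Set (G K)) (a : ℂ) (h h' e : G K → ℂ)
    (hh : ∀ x, h x = a * h' x) : T5.innerD μ F h e = a * T5.innerD μ F h' e := by
  unfold T5.innerD
  have : (fun x => h x * conj (e x)) = fun x => a * (h' x * conj (e x)) := by
    funext x
    rw [hh x, mul_assoc]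
  rw [this, integral_const_mul]

theorem shiftOp_zero534 (z : G K) (ψ : G K → ℂ) : shiftOp z 0 ψ = ψ := by
  funext x
  unfold shiftOp
  rw [zpow_zero, mul_one]

/-- A place over a divisor of `𝔫` divides `𝔫 𝒪_{K'}`. -/
theorem dvd_map_of_placeOver534 (𝔫 : Ideal (𝓞 K)) (v : HeightOneSpectrum (𝓞 K))
    (w : HeightOneSpectrum (𝓞 K')) (hvw : PlaceOver K K' v w) (hv : v.asIdeal ∣ 𝔫) :
    w.asIdeal ∣ Ideal.map (algebraMap (𝓞 K) (𝓞 K')) 𝔫 := by
  rw [Ideal.dvd_iff_le, Ideal.map_le_iff_le_comap]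
  intro x hx
  have hxv : x ∈ v.asIdeal := (Ideal.dvd_iff_le.1 hv) hx
  rw [Ideal.mem_comap]
  exact (hvw x (algebraMap (𝓞 K) (𝓞 K') x) rfl).1 hxv

/-- **THE TOP of the node T7.L2.3.** -/
theorem specDownC_of534 (hStf : StfIdC K) (hIw : IwSysC K) (hBC : BCDataC K K')
    (hRD : ResDegC K K') (hBU : BCUnitC K K') (hDB : DownBasisC K K') : SpecDownC K K' := by
  classical
  intro ℓ hcyc hℓ hcplx Φ hΦ hconst Dt hDt g hg
  obtain ⟨⟨H, hH⟩, ⟨z, hz⟩⟩ := hIw Dt.u
  obtain ⟨e, I, c, b, l, x, R, hB⟩ := hDB ℓ hcyc hℓ hcplx Φ hΦ hconst Dt hDt g hg H z hH hz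
  have hcomp : IsCompData (Dt.comp g) := hDt.comp g hg
  have hlev : Dt.𝔫 g ≠ ⊥ := hcomp.level_ne
  have hfin : FiniteDimensional K K' := by
    apply Module.finite_of_finrank_pos
    rw [hcyc.degree]
    exact hcyc.prime.pos
  choose Ch hCh using fun i => hBC Dt.S' (c i)
  -- the diagonal coefficient of the base
  have hx : ∀ i, i ∈ I →
      T5.diagCoeff (T5.AdelicAut.id K) Dt.R.μ Dt.R.F (Dt.f g [] 0 0) (e i) = x i := by
    intro i hi
    rw [diagCoeff_id534]
    have h := hB.tri i hi 0 0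
    rw [shiftOp_zero534, Function.iterate_zero, id_eq, zpow_zero, pow_zero, mul_one,
      mul_one] at h
    exact h
  -- summability from T5
  have hsum : Summable fun i => T5.diagCoeff (T5.AdelicAut.id K) Dt.R.μ Dt.R.F
      (Dt.f g [] 0 0) (e i) := by
    obtain ⟨-, φ₁, φ₂, t₁, t₂, k₁, k₁', k₂, k₂', hconv⟩ :=
      hDt.ekprod_down g [] 0 0 hg (fun x hx => absurd hx (List.not_mem_nil))
    rw [hconv]
    exact (hStf (Dt.𝔫 g) hlev Dt.R.μ Dt.R.F Dt.R.r hcomp.frame.frame hcomp.frame.ray
      (T5.autPreserves_id _ _ _) e hB.onb φ₁ φ₂ t₁ t₂ k₁ k₁' k₂ k₂').1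
  refine ⟨e, {i : ℕ // i ∈ I},
    fun i => ⟨Dt.𝔫 g, hlev, (c i.1).a, (c i.1).b⟩, fun i => Ch i.1, fun i => b i.1,
    fun i => l i.1, R, fun i => x i.1, hB.onb, ?_, ?_, ?_, ?_, ?_, ?_⟩
  · -- summability of the coefficients
    have h1 : Summable fun i : {i : ℕ // i ∈ I} =>
        ‖T5.diagCoeff (T5.AdelicAut.id K) Dt.R.μ Dt.R.F (Dt.f g [] 0 0) (e i.1)‖ :=
      (hsum.norm).subtype I
    refine h1.congr fun i => ?_
    rw [hx i.1 i.2]
  · -- unitarity of the base change data
    intro i
    refine hBU Dt.S' (Dt.𝔫 g) (c i.1) (Ch i.1) ?_ (hRD hfin) (hB.unit i.1 i.2) (hCh i.1)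
    intro w hw v hvw hv
    exact hw ((hDt.mem_S'_g g hg w).2 (dvd_map_of_placeOver534 (Dt.𝔫 g) v w hvw hv))
  · -- base change
    intro i
    exact (hCh i.1).1
  · intro i
    exact hB.reg i.1 i.2
  · -- the expansion
    intro X hX k m hm
    unfold specSide
    have hterm : ∀ i : ℕ, T5.diagCoeff (T5.AdelicAut.id K) Dt.R.μ Dt.R.F (Dt.f g X k m) (e i)
        = if i ∈ I then wordEv X (Ch i) * x i * b i ^ k * l i ^ m else 0 := by
      intro i
      rw [diagCoeff_id534]
      by_cases hi : i ∈ I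
      · rw [if_pos hi]
        have hop := hDt.op_down g X k m hg hX (e i) (c i) (Ch i) (hB.eig i hi) (hCh i) H z hH hz
        rw [innerD_const_mul534 Dt.R.μ Dt.R.F (wordEv X (Ch i)) _ _ (e i) hop, hB.tri i hi k m]
        ring
      · rw [if_neg hi]
        exact innerD_zero_left534 _ _ _ _
          (hDt.kill_down g X k m hg hX (e i) (hB.onb.cusp i) (hB.perp i hi))
    have hsupp : Function.support (fun i : ℕ =>
        T5.diagCoeff (T5.AdelicAut.id K) Dt.R.μ Dt.R.F (Dt.f g X k m) (e i)) ⊆ I := by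
      intro i hi
      by_contra hiI
      apply hi
      show T5.diagCoeff (T5.AdelicAut.id K) Dt.R.μ Dt.R.F (Dt.f g X k m) (e i) = 0
      rw [hterm i, if_neg hiI]
    rw [← tsum_subtype_eq_of_support_subset hsupp]
    refine tsum_congr fun i => ?_
    rw [hterm i.1, if_pos i.2]
  · -- realisation
    intro i hsph
    have hi := i.2
    have hcusp := hB.onb.cusp i.1
    have heig := hB.eig i.1 hi
    have : Algebra.IsAlgebraic K K' := Algebra.IsAlgebraic.of_finite K K'
    refine ⟨e i.1, ⟨hcusp.cont, hcusp.bdd, hB.ne i.1 hi, hcusp.aut.left_inv,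
      hcusp.aut.level_inv, heig.inv.arch_scalar, ?_, ?_, ?_, hcusp.cuspidal, heig.hecke⟩⟩
    · intro w k hk y
      have := hcusp.aut.arch_compact w k hk y
      rw [this]
      simp [T5.trivType]
    · intro w _ d hd Y hY y
      obtain ⟨w', rfl⟩ := NumberField.InfinitePlace.comap_surjective (K := K') w
      have h1 := heig.mean (w'.comap (algebraMap K K')) d hd Y hY y
      rw [h1, ← (hCh i.1).2 w' d, hsph w' d hd]
      rfl
    · intro w hw
      exact absurd (hcplx w) (NumberField.InfinitePlace.not_isComplex_iff_isReal.2 hw)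

end Top

end Fermat.Agent.LT.T7.SD534

end
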