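import Mathlib
import Fermat.Agent.LT.T7.H534.SpecDownSpec

/-!
# Row LT, tower T7, NODE T7.L2.3.5 `SD534.DownBasisC` -- THE CUT, level 2 (helper534)

OFF-MAIN.  Definitions and frozen Props; the assembly `downBasisC_of534` is in
`DownBasisTop.lean`.  No hole, nothing assumed.  ADDITIVE.

    DownBasisC K K'  ⟸  CuspFormC K + WSubC K + OpsClassC K + WBasisC K + SchurSeqC
                          + RegParamFnC K + SubSeqC K          (+ the fields of `IsL2Data`)

Notation: `V` = the cusp functions of level `𝔫`, trivial type, invariant under the ray generator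
(`InV`); `W ⊆ V` = the INVARIANT cusp functions (`InW` = `T7.IsWFn` for the one-point orbit `u`:
invariant under the positive scalars at every infinite place and under the Iwahori subgroup at
`u`, `u ∣ 𝔫`); `InCls c` = the members of `W` with joint eigen-data `c` (`T7.IsEigFn`);
`⟨f, f'⟩ = T5.innerD μ F f f'` (linear in `f`).

## The leaves

* `CuspFormC`   : `⟨ , ⟩` is a positive definite hermitian form on `V`; `R(φ)` is linear on `V`.
* `WSubC`       : `V`, `W` and the classes are closed under `+` and scalar multiplication.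
* `OpsClassC`   : `Z^k` and `𝒰` preserve the classes and commute.
* `WBasisC` (NODE, port of the closed tower T2): an orthonormal sequence of joint eigenfunctions
  which is complete in `W`, with FINITE classes which EXHAUST the eigenfunctions.
* `SchurSeqC` (MATHLIB ONLY, abstract): simultaneous Schur form of commuting operators on the
  finite dimensional class spaces; the new orthonormal sequence is still complete.
* `RegParamFnC` (NODE, asset helper822 `regParam_of_eigen822`): the joint eigenvalues of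
  `(Z, 𝒰)` on `W` satisfy `IsRegParam √q`.
* `SubSeqC`     : every subspace of `V` has a complete orthonormal sequence (zeros allowed)
  (separability of `L²(F)` + Gram--Schmidt); used for `V ∩ W^⊥`.
-/

set_option autoImplicit false
set_option linter.unusedSectionVars false
set_option linter.unusedVariables false

open AutomorphicForm IsDedekindDomain NumberField MeasureTheory
open scoped ComplexConjugate

noncomputable section

namespace Fermat.Agent.LT.T7.SD534

open Fermat.Agent.LT.H556 Fermat.Agent.LT.H556.A0 Fermat.Agent.LT.T7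

attribute [local instance] Fermat.Agent.LT.T5.instMeasurableSpaceG

section Defs

variable {K : Type} [Field K] [NumberField K]

/-- `f ∈ V`: a cusp function of level `𝔫`, trivial `K_∞`-type, invariant under `r`. -/
def InV (𝔫 : Ideal (𝓞 K)) (r : G K) (f : G K → ℂ) : Prop := T5.IsCuspFn 𝔫 T5.trivType r f

/-- `χ ∈ W`: an invariant cusp function for the regular place `u`. -/
def InW (𝔫 : Ideal (𝓞 K)) (r : G K) (u : HeightOneSpectrum (𝓞 K)) (χ : G K → ℂ) : Prop :=
  IsWFn 𝔫 r 1 (fun _ => u) χ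

/-- `ψ` is a member of `W` with joint eigen-data `c`. -/
def InCls (𝔫 : Ideal (𝓞 K)) (r : G K) (u : HeightOneSpectrum (𝓞 K)) (c : EigData K)
    (ψ : G K → ℂ) : Prop :=
  IsEigFn 𝔫 r 1 (fun _ => u) ψ c

theorem InCls.inW {𝔫 : Ideal (𝓞 K)} {r : G K} {u : HeightOneSpectrum (𝓞 K)} {c : EigData K}
    {ψ : G K → ℂ} (h : InCls 𝔫 r u c ψ) : InW 𝔫 r u ψ := h.inv

theorem InW.inV {𝔫 : Ideal (𝓞 K)} {r : G K} {u : HeightOneSpectrum (𝓞 K)}
    {χ : G K → ℂ} (h : InW 𝔫 r u χ) : InV 𝔫 r χ := h.cusp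

/-- The hermitian form on `V` and the linearity of the convolutions. -/
structure IsCuspForm (μ : Measure (G K)) (F : Set (G K)) (r : G K) (𝔫 : Ideal (𝓞 K)) :
    Prop where
  add_left : ∀ f f' f'' : G K → ℂ, InV 𝔫 r f → InV 𝔫 r f' → InV 𝔫 r f'' →
    T5.innerD μ F (f + f') f'' = T5.innerD μ F f f'' + T5.innerD μ F f' f''
  smul_left : ∀ (a : ℂ) (f f' : G K → ℂ), InV 𝔫 r f → InV 𝔫 r f' →
    T5.innerD μ F (a • f) f' = a * T5.innerD μ F f f'
  conj_symm : ∀ f f' : G K → ℂ, InV 𝔫 r f → InV 𝔫 r f' →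
    T5.innerD μ F f' f = conj (T5.innerD μ F f f')
  nonneg : ∀ f : G K → ℂ, InV 𝔫 r f → 0 ≤ (T5.innerD μ F f f).re
  definite : ∀ f : G K → ℂ, InV 𝔫 r f → T5.innerD μ F f f = 0 → f = 0
  conv_add : ∀ φ f f' : G K → ℂ, T5.IsTestFn 𝔫 T5.trivType φ → InV 𝔫 r f → InV 𝔫 r f' →
    T5.Rconv μ φ (f + f') = T5.Rconv μ φ f + T5.Rconv μ φ f'
  conv_smul : ∀ (φ : G K → ℂ) (a : ℂ) (f : G K → ℂ), T5.IsTestFn 𝔫 T5.trivType φ →
    InV 𝔫 r f → T5.Rconv μ φ (a • f) = a • T5.Rconv μ φ f

/-- `V`, `W` and the classes are linear subspaces of the functions on `GL₂(𝔸_K)`. -/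
structure IsWSub (𝔫 : Ideal (𝓞 K)) (r : G K) (u : HeightOneSpectrum (𝓞 K)) : Prop where
  zeroW : InW 𝔫 r u (0 : G K → ℂ)
  addV : ∀ f f' : G K → ℂ, InV 𝔫 r f → InV 𝔫 r f' → InV 𝔫 r (f + f')
  smulV : ∀ (a : ℂ) (f : G K → ℂ), InV 𝔫 r f → InV 𝔫 r (a • f)
  addW : ∀ f f' : G K → ℂ, InW 𝔫 r u f → InW 𝔫 r u f' → InW 𝔫 r u (f + f')
  smulW : ∀ (a : ℂ) (f : G K → ℂ), InW 𝔫 r u f → InW 𝔫 r u (a • f)
  addC : ∀ (c : EigData K) (f f' : G K → ℂ), InCls 𝔫 r u c f → InCls 𝔫 r u c f' →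
    InCls 𝔫 r u c (f + f')
  smulC : ∀ (c : EigData K) (a : ℂ) (f : G K → ℂ), InCls 𝔫 r u c f → InCls 𝔫 r u c (a • f)

/-- The operators at the regular place preserve the classes and commute. -/
structure IsOpsClass (𝔫 : Ideal (𝓞 K)) (r : G K) (u : HeightOneSpectrum (𝓞 K))
    (H : Finset (G K)) (z : G K) : Prop where
  shift : ∀ (c : EigData K) (ψ : G K → ℂ) (k : ℤ), InCls 𝔫 r u c ψ →
    InCls 𝔫 r u c (shiftOp z k ψ)
  iw : ∀ (c : EigData K) (ψ : G K → ℂ), InCls 𝔫 r u c ψ → InCls 𝔫 r u c (iwOp u H ψ)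
  comm : ∀ (ψ : G K → ℂ) (k : ℤ), iwOp u H (shiftOp z k ψ) = shiftOp z k (iwOp u H ψ)

/-- The span of the members of the class `a` of a sequence `w` (index set `J`, classes `cl`). -/
def clsSpan {M A : Type} [AddCommGroup M] [Module ℂ M] (w : ℕ → M) (J : Set ℕ) (cl : ℕ → A)
    (a : A) : Submodule ℂ M :=
  Submodule.span ℂ {f : M | ∃ j : ℕ, j ∈ J ∧ cl j = a ∧ f = w j}

/-- An orthonormal sequence of joint eigenfunctions, complete in `W`, with finite classes which
exhaust the eigenfunctions. -/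
structure IsWBasis (μ : Measure (G K)) (F : Set (G K)) (r : G K) (𝔫 : Ideal (𝓞 K))
    (u : HeightOneSpectrum (𝓞 K)) (w : ℕ → G K → ℂ) (J : Set ℕ) (c : ℕ → EigData K) :
    Prop where
  eig : ∀ j, j ∈ J → InCls 𝔫 r u (c j) (w j)
  unit : ∀ j, j ∈ J → IsUnitOut 𝔫 (c j)
  norm_one : ∀ j, j ∈ J → T5.innerD μ F (w j) (w j) = 1
  orth : ∀ i, i ∈ J → ∀ j, j ∈ J → i ≠ j → T5.innerD μ F (w i) (w j) = 0
  parseval : ∀ χ : G K → ℂ, InW 𝔫 r u χ →
    HasSum (fun j : J => ‖T5.innerD μ F χ (w j)‖ ^ 2) (T5.innerD μ F χ χ).re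
  finite : ∀ j₀, j₀ ∈ J → {j : ℕ | j ∈ J ∧ c j = c j₀}.Finite
  exhaust : ∀ j₀, j₀ ∈ J → ∀ ψ : G K → ℂ, InCls 𝔫 r u (c j₀) ψ → ψ ∈ clsSpan w J c (c j₀)

end Defs

/-! ## The leaves -/

section Leaves

variable (K : Type) [Field K] [NumberField K]

/-- **DB.1 FORM.**  `⟨ , ⟩` is a positive definite hermitian form on the cusp functions and the
convolution by a test function is linear on them.  (Cusp functions are continuous and bounded,
`μ F < ∞`; a test function is continuous with compact support; definiteness: `f = 0` a.e. on `F`,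
hence a.e. on `GL₂(𝔸_K) = ⋃ γ F rᵐ`, hence everywhere: `T2.PairDefinite` for the frame of T5.) -/
def CuspFormC : Prop :=
  ∀ (μ : Measure (G K)) (F : Set (G K)) (r : G K) (𝔫 : Ideal (𝓞 K)), 𝔫 ≠ ⊥ →
    T5.IsFrame μ F → T5.IsRayGen r → IsCuspForm μ F r 𝔫

/-- **DB.2 SUBSPACES.**  (Every condition of `T5.IsCuspFn`, `IsWFn`, `IsEigFn` is linear; the
constant term needs the integrability of a bounded continuous function on a fundamental domain
of `K` in `𝔸_K`, which has finite measure: T1.) -/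
def WSubC : Prop :=
  ∀ (𝔫 : Ideal (𝓞 K)) (r : G K) (u : HeightOneSpectrum (𝓞 K)), IsWSub 𝔫 r u

/-- **DB.3 OPS.**  For `u ∣ 𝔫`, an Iwahori coset system `H` and a scalar uniformiser `z` at `u`:
`Z^k` and `𝒰` map a member of `W` with eigen-data `c` to a member of `W` with eigen-data `c`
(`z` is central; the `q` elements of `H` are ALL the classes of `I t I / I`, so left
multiplication by an element of `I` permutes them modulo `I`), and `𝒰 Z^k = Z^k 𝒰`. -/
def OpsClassC : Prop :=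
  ∀ (𝔫 : Ideal (𝓞 K)) (r : G K) (u : HeightOneSpectrum (𝓞 K)) (H : Finset (G K)) (z : G K),
    𝔫 ≠ ⊥ → T5.IsRayGen r → u.asIdeal ∣ 𝔫 → IsIwCosetSystem u H → IsScalarUniformizerAt u z →
      IsOpsClass 𝔫 r u H z

/-- **DB.4 = NODE W-BASIS** (port of the closed tower T2 to the Iwahori level at `u`).
Route: `T2.exists_natBasis130` + `T2.finite_class130` for the level `𝔫` (the members of `W` are
cusp functions of T2 of level `𝔫`), the projector `P` = average over `I_u / U(𝔫)_u` (a finite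
group) commutes with the operators of T2, so `W ∩ V_c = P V_c` for every class `V_c`;
Gram--Schmidt in `P V_c`.  The eigen-data are NORMALISED (`0` at the places dividing `𝔫` and at
the radii `d ≤ 0`), so that two members are in the same class iff their data are EQUAL. -/
def WBasisC : Prop :=
  ∀ (μ : Measure (G K)) (F : Set (G K)) (r : G K) (𝔫 : Ideal (𝓞 K))
    (u : HeightOneSpectrum (𝓞 K)), 𝔫 ≠ ⊥ → T5.IsFrame μ F → T5.IsRayGen r → u.asIdeal ∣ 𝔫 →
    TotCplx K →
      ∃ (w : ℕ → G K → ℂ) (J : Set ℕ) (c : ℕ → EigData K), IsWBasis μ F r 𝔫 u w J c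

/-- **DB.6 = NODE REG-PARAM** (asset helper822 `LT/T7/H822/RegParam.lean`
`regParam_of_eigen822`).  A nonzero member of `W` which is a joint eigenfunction of `Z` and `𝒰`
with eigenvalues `(b, l)` has `IsRegParam √q b l`.
Route: on the Iwahori invariant cusp functions `S = ∑_{h ∈ I s I / I} R(h)` is symmetric with
`S² = (q - 1) S + q`, `ρ = R(ω)`, `ω = [[0, 1], [c, 0]]` at `u`, is unitary, `ρ² = Z` for
`z = c · 1`, and `√q 𝒰 = S ρ` (`s ω = diag(c, 1)`, `ω` normalises `I`). -/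
def RegParamFnC : Prop :=
  ∀ (μ : Measure (G K)) (F : Set (G K)) (r : G K) (𝔫 : Ideal (𝓞 K))
    (u : HeightOneSpectrum (𝓞 K)) (H : Finset (G K)) (z : G K),
    𝔫 ≠ ⊥ → T5.IsFrame μ F → T5.IsRayGen r → u.asIdeal ∣ 𝔫 → IsIwCosetSystem u H →
    IsScalarUniformizerAt u z →
    ∀ (ψ : G K → ℂ) (b l : ℂ), InW 𝔫 r u ψ → (∃ y : G K, ψ y ≠ 0) →
      shiftOp z 1 ψ = b • ψ → iwOp u H ψ = l • ψ →
      IsRegParam (Real.sqrt (Ideal.absNorm u.asIdeal : ℝ)) b l

/-- **DB.7 SUB-SEQ.**  Every linear subspace `S` of the cusp functions has an orthonormal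
sequence (zero vectors allowed) of members of `S` which is complete in `S`.
(`L²(F, μ)` is separable: `GL₂(𝔸_K)` is second countable; Gram--Schmidt on a dense sequence of
`S`.) -/
def SubSeqC : Prop :=
  ∀ (μ : Measure (G K)) (F : Set (G K)) (r : G K) (𝔫 : Ideal (𝓞 K)), 𝔫 ≠ ⊥ →
    T5.IsFrame μ F → T5.IsRayGen r →
    ∀ S : (G K → ℂ) → Prop, (∀ f, S f → InV 𝔫 r f) → S 0 → (∀ f f', S f → S f' → S (f + f')) →
      (∀ (a : ℂ) (f : G K → ℂ), S f → S (a • f)) →
      ∃ p : ℕ → G K → ℂ, (∀ n, S (p n)) ∧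
        (∀ n m, n ≠ m → T5.innerD μ F (p n) (p m) = 0) ∧
        (∀ n, T5.innerD μ F (p n) (p n) = 1 ∨ p n = 0) ∧
        ∀ f : G K → ℂ, S f →
          HasSum (fun n => ‖T5.innerD μ F f (p n)‖ ^ 2) (T5.innerD μ F f f).re

end Leaves

/-- **DB.5 SCHUR (MATHLIB ONLY, abstract).**  `M` a complex vector space, `form` a positive
definite hermitian form on the subspace `Wm` (linear in the FIRST variable), `w` an orthonormal
sequence (index set `J`) which is complete in `Wm`, with finite classes `cl`; `Zk k`, `U`, `B`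
maps which are linear on the class spaces `E a = clsSpan w J cl a`, preserve them and commute
there, `Zk` a group action.  Then there is an orthonormal sequence `e` with `e j ∈ E (cl j)`,
complete in `Wm`, in which all the operators are upper triangular on every class space:
`form (B (Zk k (U^[m] (e j)))) (e j) = x j * b j ^ k * l j ^ m`, and every `(b j, l j)` is a joint
eigenvalue of `(Zk 1, U)` on `E (cl j)`.
Proof: `E a` is finite dimensional with orthonormal basis `w j`, `cl j = a`; commuting operators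
on a finite dimensional inner product space have a common eigenvector of the ADJOINTS, whose
orthogonal complement is invariant: induction gives an orthonormal basis with triangular
matrices; the diagonal entries of a product are the products of the diagonal entries; the
diagonal pairs are joint eigenvalues; Parseval is regrouped class by class (finite classes,
nonnegative terms). -/
def SchurSeqC : Prop :=
  ∀ (M : Type) [AddCommGroup M] [Module ℂ M] (form : M → M → ℂ) (Wm : Submodule ℂ M)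
    (A : Type) (w : ℕ → M) (J : Set ℕ) (cl : ℕ → A) (Zk : ℤ → M → M) (U B : M → M),
    (∀ x ∈ Wm, ∀ y ∈ Wm, ∀ z ∈ Wm, form (x + y) z = form x z + form y z) →
    (∀ (a : ℂ), ∀ x ∈ Wm, ∀ y ∈ Wm, form (a • x) y = a * form x y) →
    (∀ x ∈ Wm, ∀ y ∈ Wm, form y x = conj (form x y)) →
    (∀ x ∈ Wm, 0 ≤ (form x x).re) →
    (∀ x ∈ Wm, form x x = 0 → x = 0) →
    (∀ j ∈ J, w j ∈ Wm) →
    (∀ j ∈ J, form (w j) (w j) = 1) →
    (∀ i ∈ J, ∀ j ∈ J, i ≠ j → form (w i) (w j) = 0) →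
    (∀ χ ∈ Wm, HasSum (fun j : J => ‖form χ (w j)‖ ^ 2) (form χ χ).re) →
    (∀ j₀ ∈ J, {j : ℕ | j ∈ J ∧ cl j = cl j₀}.Finite) →
    (∀ a : A, ∀ x ∈ clsSpan w J cl a, ∀ y ∈ clsSpan w J cl a,
      U (x + y) = U x + U y ∧ B (x + y) = B x + B y ∧ ∀ k : ℤ, Zk k (x + y) = Zk k x + Zk k y) →
    (∀ (a : A) (t : ℂ), ∀ x ∈ clsSpan w J cl a,
      U (t • x) = t • U x ∧ B (t • x) = t • B x ∧ ∀ k : ℤ, Zk k (t • x) = t • Zk k x) →
    (∀ a : A, ∀ x ∈ clsSpan w J cl a,
      U x ∈ clsSpan w J cl a ∧ B x ∈ clsSpan w J cl a ∧ ∀ k : ℤ, Zk k x ∈ clsSpan w J cl a) →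
    (∀ a : A, ∀ x ∈ clsSpan w J cl a,
      B (U x) = U (B x) ∧ (∀ k : ℤ, B (Zk k x) = Zk k (B x)) ∧
        ∀ k : ℤ, U (Zk k x) = Zk k (U x)) →
    (∀ a : A, ∀ x ∈ clsSpan w J cl a,
      Zk 0 x = x ∧ ∀ k k' : ℤ, Zk (k + k') x = Zk k (Zk k' x)) →
    ∃ (e : ℕ → M) (b l x : ℕ → ℂ),
      (∀ j ∈ J, e j ∈ clsSpan w J cl (cl j)) ∧
      (∀ j ∈ J, form (e j) (e j) = 1) ∧
      (∀ i ∈ J, ∀ j ∈ J, i ≠ j → form (e i) (e j) = 0) ∧
      (∀ χ ∈ Wm, HasSum (fun j : J => ‖form χ (e j)‖ ^ 2) (form χ χ).re) ∧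
      (∀ j ∈ J, ∀ (k : ℤ) (m : ℕ),
        form (B (Zk k (U^[m] (e j)))) (e j) = x j * b j ^ k * l j ^ m) ∧
      ∀ j ∈ J, ∃ y ∈ clsSpan w J cl (cl j), y ≠ 0 ∧ Zk 1 y = b j • y ∧ U y = l j • y

end Fermat.Agent.LT.T7.SD534

end
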