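import Mathlib
import Fermat.Agent.LT.T7.H534.DownBasisSpec

/-!
# Row LT, tower T7, NODE T7.L2.3.5 `SD534.DownBasisC` -- THE ASSEMBLY (helper534)

OFF-MAIN.  PROVED: `downBasisC_of534`, from the seven leaves of `DownBasisSpec.lean` and the
fields `proj_down`, `class_down`, `comm_down`, `ekprod_down`, `u_level`, `comp` of `IsL2Data`.
No hole, nothing assumed.  ADDITIVE.
-/

set_option autoImplicit false
set_option linter.unusedSectionVars false
set_option linter.unusedVariables false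

open AutomorphicForm IsDedekindDomain NumberField MeasureTheory
open scoped ComplexConjugate

noncomputable section

namespace Fermat.Agent.LT.T7.SD534

open Fermat.Agent.LT.H556 Fermat.Agent.LT.H556.A0 Fermat.Agent.LT.T7

attribute [local instance] Fermat.Agent.LT.T5.instMeasurableSpaceG

section Basic

variable {K : Type} [Field K] [NumberField K]

/-- `W` as a submodule of the functions. -/
def wSub534 {𝔫 : Ideal (𝓞 K)} {r : G K} {u : HeightOneSpectrum (𝓞 K)} (h : IsWSub 𝔫 r u) :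
    Submodule ℂ (G K → ℂ) where
  carrier := {χ | InW 𝔫 r u χ}
  zero_mem' := h.zeroW
  add_mem' := fun {a b} ha hb => h.addW a b ha hb
  smul_mem' := fun a f hf => h.smulW a f hf

theorem mem_wSub534 {𝔫 : Ideal (𝓞 K)} {r : G K} {u : HeightOneSpectrum (𝓞 K)}
    (h : IsWSub 𝔫 r u) (χ : G K → ℂ) : χ ∈ wSub534 h ↔ InW 𝔫 r u χ := Iff.rfl

theorem innerD_zero_right534 (μ : Measure (G K)) (F : Set (G K)) (f : G K → ℂ) :
    T5.innerD μ F f 0 = 0 := by
  unfold T5.innerD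
  simp

theorem innerD_zero_left0_534 (μ : Measure (G K)) (F : Set (G K)) (f : G K → ℂ) :
    T5.innerD μ F 0 f = 0 := by
  unfold T5.innerD
  simp

theorem iwOp_add534 (u : HeightOneSpectrum (𝓞 K)) (H : Finset (G K)) (x y : G K → ℂ) :
    iwOp u H (x + y) = iwOp u H x + iwOp u H y := by
  funext g
  simp only [iwOp, Pi.add_apply, Finset.sum_add_distrib, mul_add]

theorem iwOp_smul534 (u : HeightOneSpectrum (𝓞 K)) (H : Finset (G K)) (t : ℂ) (x : G K → ℂ) :
    iwOp u H (t • x) = t • iwOp u H x := by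
  funext g
  simp only [iwOp, Pi.smul_apply, smul_eq_mul, ← Finset.mul_sum]
  ring

theorem shiftOp_add534 (z : G K) (k : ℤ) (x y : G K → ℂ) :
    shiftOp z k (x + y) = shiftOp z k x + shiftOp z k y := by
  funext g
  simp only [shiftOp, Pi.add_apply]

theorem shiftOp_smul534 (z : G K) (k : ℤ) (t : ℂ) (x : G K → ℂ) :
    shiftOp z k (t • x) = t • shiftOp z k x := by
  funext g
  simp only [shiftOp, Pi.smul_apply]

theorem shiftOp_shiftOp534 (z : G K) (k k' : ℤ) (x : G K → ℂ) :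
    shiftOp z (k + k') x = shiftOp z k (shiftOp z k' x) := by
  funext g
  simp only [shiftOp]
  rw [zpow_add, mul_assoc]

theorem rconv_zero534 (μ : Measure (G K)) (φ : G K → ℂ) : T5.Rconv μ φ 0 = 0 := by
  funext g
  simp [T5.Rconv]

/-- The class spans are contained in `W`. -/
theorem clsSpan_le534 {𝔫 : Ideal (𝓞 K)} {r : G K} {u : HeightOneSpectrum (𝓞 K)}
    (hS : IsWSub 𝔫 r u) (w : ℕ → G K → ℂ) (J : Set ℕ) (c : ℕ → EigData K)
    (heig : ∀ j, j ∈ J → InCls 𝔫 r u (c j) (w j)) (a : EigData K) :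
    clsSpan w J c a ≤ wSub534 hS := by
  unfold clsSpan
  rw [Submodule.span_le]
  rintro f ⟨j, hj, -, rfl⟩
  exact (heig j hj).inW

/-- The members of a class span are eigenfunctions with the data of the class. -/
theorem inCls_of_mem534 {𝔫 : Ideal (𝓞 K)} {r : G K} {u : HeightOneSpectrum (𝓞 K)}
    (hS : IsWSub 𝔫 r u) (w : ℕ → G K → ℂ) (J : Set ℕ) (c : ℕ → EigData K)
    (heig : ∀ j, j ∈ J → InCls 𝔫 r u (c j) (w j)) (j₀ : ℕ) (hj₀ : j₀ ∈ J)
    (x : G K → ℂ) (hx : x ∈ clsSpan w J c (c j₀)) : InCls 𝔫 r u (c j₀) x := by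
  unfold clsSpan at hx
  induction hx using Submodule.span_induction with
  | mem f hf =>
    obtain ⟨j, hj, hc, rfl⟩ := hf
    rw [← hc]
    exact heig j hj
  | zero =>
    have h := hS.smulC (c j₀) 0 (w j₀) (heig j₀ hj₀)
    rwa [zero_smul] at h
  | add f f' _ _ hf hf' => exact hS.addC (c j₀) f f' hf hf'
  | smul a f _ hf => exact hS.smulC (c j₀) a f hf

/-- A class span without members is trivial. -/
theorem clsSpan_eq_bot534 {M A : Type} [AddCommGroup M] [Module ℂ M] (w : ℕ → M) (J : Set ℕ)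
    (cl : ℕ → A) (a : A) (h : ¬ ∃ j, j ∈ J ∧ cl j = a) : clsSpan w J cl a = ⊥ := by
  unfold clsSpan
  rw [Submodule.span_eq_bot]
  rintro f ⟨j, hj, hc, -⟩
  exact absurd ⟨j, hj, hc⟩ h

end Basic

/-! ## The interleaved sequence -/

section Mix

variable {K : Type} [Field K] [NumberField K]

open Classical in
/-- The interleaved sequence: `e n` (or `0` if `n ∉ J`) at `2 n`, `p n` at `2 n + 1`. -/
def mix534 (e p : ℕ → G K → ℂ) (J : Set ℕ) : ℕ → G K → ℂ :=
  fun i => if i % 2 = 0 then (if i / 2 ∈ J then e (i / 2) else 0) else p (i / 2)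

theorem mix_even534 (e p : ℕ → G K → ℂ) (J : Set ℕ) (n : ℕ) :
    mix534 e p J (2 * n) = open Classical in if n ∈ J then e n else 0 := by
  unfold mix534
  have h1 : 2 * n % 2 = 0 := Nat.mul_mod_right 2 n
  have h2 : 2 * n / 2 = n := Nat.mul_div_cancel_left n (by norm_num)
  rw [if_pos h1, h2]

theorem mix_odd534 (e p : ℕ → G K → ℂ) (J : Set ℕ) (n : ℕ) :
    mix534 e p J (2 * n + 1) = p n := by
  unfold mix534
  have h1 : ¬ (2 * n + 1) % 2 = 0 := by omega
  have h2 : (2 * n + 1) / 2 = n := by omega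
  rw [if_neg h1, h2]

theorem mix_cases534 (e p : ℕ → G K → ℂ) (J : Set ℕ) (i : ℕ) :
    (∃ n, i = 2 * n ∧ n ∈ J ∧ mix534 e p J i = e n) ∨
    (∃ n, i = 2 * n ∧ n ∉ J ∧ mix534 e p J i = 0) ∨
    (∃ n, i = 2 * n + 1 ∧ mix534 e p J i = p n) := by
  classical
  rcases Nat.even_or_odd' i with ⟨n, hn | hn⟩
  · by_cases hJ : n ∈ J
    · left
      refine ⟨n, hn, hJ, ?_⟩
      rw [hn, mix_even534, if_pos hJ]
    · right; left
      refine ⟨n, hn, hJ, ?_⟩
      rw [hn, mix_even534, if_neg hJ]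
  · right; right
    exact ⟨n, hn, by rw [hn, mix_odd534]⟩

/-- Parseval for the interleaved sequence. -/
theorem complete_mix534 {μ : Measure (G K)} {F : Set (G K)} {r : G K} {𝔫 : Ideal (𝓞 K)}
    {u : HeightOneSpectrum (𝓞 K)} (hF : IsCuspForm μ F r 𝔫) (hS : IsWSub 𝔫 r u)
    (e p : ℕ → G K → ℂ) (J : Set ℕ)
    (he : ∀ j, j ∈ J → InW 𝔫 r u (e j))
    (hePars : ∀ χ : G K → ℂ, InW 𝔫 r u χ →
      HasSum (fun j : J => ‖T5.innerD μ F χ (e j)‖ ^ 2) (T5.innerD μ F χ χ).re)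
    (hpV : ∀ n, InV 𝔫 r (p n))
    (hpW : ∀ n, ∀ χ : G K → ℂ, InW 𝔫 r u χ → T5.innerD μ F (p n) χ = 0)
    (hpPars : ∀ f : G K → ℂ, InV 𝔫 r f →
      (∀ χ : G K → ℂ, InW 𝔫 r u χ → T5.innerD μ F f χ = 0) →
      HasSum (fun n => ‖T5.innerD μ F f (p n)‖ ^ 2) (T5.innerD μ F f f).re)
    (f : G K → ℂ) (hf : InV 𝔫 r f)
    (hproj : ∃ f₁ : G K → ℂ, InW 𝔫 r u f₁ ∧
      ∀ χ : G K → ℂ, InW 𝔫 r u χ → T5.innerD μ F (fun x => f x - f₁ x) χ = 0) :
    HasSum (fun i => ‖T5.innerD μ F f (mix534 e p J i)‖ ^ 2) (T5.innerD μ F f f).re := by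
  classical
  obtain ⟨f₁, hf₁, hperp⟩ := hproj
  set d : G K → ℂ := fun x => f x - f₁ x with hd
  have hf₁V : InV 𝔫 r f₁ := hf₁.inV
  have hdV : InV 𝔫 r d := by
    have h1 : d = f + (-1 : ℂ) • f₁ := by
      funext x
      simp only [hd, Pi.add_apply, Pi.smul_apply, smul_eq_mul]
      ring
    rw [h1]
    exact hS.addV _ _ hf (hS.smulV _ _ hf₁V)
  have hfd : f = f₁ + d := by
    funext x
    simp only [hd, Pi.add_apply]
    ring
  -- the coefficients
  have hcoefW : ∀ χ : G K → ℂ, InW 𝔫 r u χ → T5.innerD μ F f χ = T5.innerD μ F f₁ χ := by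
    intro χ hχ
    have h := hF.add_left f₁ d χ hf₁V hdV hχ.inV
    rw [← hfd] at h
    rw [h, hperp χ hχ, add_zero]
  have hcoefP : ∀ n, T5.innerD μ F f (p n) = T5.innerD μ F d (p n) := by
    intro n
    have h := hF.add_left f₁ d (p n) hf₁V hdV (hpV n)
    rw [← hfd] at h
    have h0 : T5.innerD μ F f₁ (p n) = 0 := by
      rw [hF.conj_symm (p n) f₁ (hpV n) hf₁V, hpW n f₁ hf₁, map_zero]
    rw [h, h0, zero_add]
  -- Pythagoras
  have hpyth : (T5.innerD μ F f f).re = (T5.innerD μ F f₁ f₁).re + (T5.innerD μ F d d).re := by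
    have h1 : T5.innerD μ F f f = T5.innerD μ F f₁ f + T5.innerD μ F d f := by
      have h := hF.add_left f₁ d f hf₁V hdV hf
      rwa [← hfd] at h
    have h2 : T5.innerD μ F f₁ f = conj (T5.innerD μ F f₁ f₁) := by
      rw [hF.conj_symm f f₁ hf hf₁V, hcoefW f₁ hf₁]
    have h3 : T5.innerD μ F d f = conj (T5.innerD μ F d d) := by
      rw [hF.conj_symm f d hf hdV]
      have h := hF.add_left f₁ d d hf₁V hdV hdV
      rw [← hfd] at h
      have h0 : T5.innerD μ F f₁ d = 0 := by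
        rw [hF.conj_symm d f₁ hdV hf₁V, hperp f₁ hf₁, map_zero]
      rw [h, h0, zero_add]
    rw [h1, h2, h3, Complex.add_re, Complex.conj_re, Complex.conj_re]
  rw [hpyth]
  refine HasSum.even_add_odd ?_ ?_
  · -- the even part
    have h1 := hePars f₁ hf₁
    have h2 := (hasSum_subtype_iff_indicator
      (f := fun n => ‖T5.innerD μ F f₁ (e n)‖ ^ 2) (s := J)).1 h1
    have h3 : (fun k => ‖T5.innerD μ F f (mix534 e p J (2 * k))‖ ^ 2)
        = J.indicator (fun n => ‖T5.innerD μ F f₁ (e n)‖ ^ 2) := by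
      funext n
      rw [mix_even534]
      by_cases hn : n ∈ J
      · rw [if_pos hn, Set.indicator_of_mem hn, hcoefW (e n) (he n hn)]
      · rw [if_neg hn, Set.indicator_of_notMem hn, innerD_zero_right534, norm_zero]
        norm_num
    rw [h3]
    exact h2
  · have h3 : (fun k => ‖T5.innerD μ F f (mix534 e p J (2 * k + 1))‖ ^ 2)
        = fun n => ‖T5.innerD μ F d (p n)‖ ^ 2 := by
      funext n
      rw [mix_odd534, hcoefP n]
    rw [h3]
    exact hpPars d hdV hperp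

end Mix

/-! ## The assembly -/

section Top

variable {K K' : Type} [Field K] [NumberField K] [Field K'] [NumberField K'] [Algebra K K']

theorem iwOp_zero534 {K : Type} [Field K] [NumberField K] (u : HeightOneSpectrum (𝓞 K))
    (H : Finset (G K)) : iwOp u H (0 : G K → ℂ) = 0 := by
  funext g
  simp [iwOp]

theorem shiftOp_zero0_534 {K : Type} [Field K] [NumberField K] (z : G K) (k : ℤ) :
    shiftOp z k (0 : G K → ℂ) = 0 := by
  funext g
  simp [shiftOp]

/-- **THE ASSEMBLY of the node DOWN-BASIS.** -/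
theorem downBasisC_of534 (hForm : CuspFormC K) (hSub : WSubC K) (hOps : OpsClassC K)
    (hWB : WBasisC K) (hSchur : SchurSeqC) (hReg : RegParamFnC K) (hSeq : SubSeqC K) :
    DownBasisC K K' := by
  classical
  intro ℓ hcyc hℓ hcplx Φ hΦ hconst Dt hDt g hg H z hH hz
  have hcomp : IsCompData (Dt.comp g) := hDt.comp g hg
  have hlev : Dt.𝔫 g ≠ ⊥ := hcomp.level_ne
  have hfr : T5.IsFrame Dt.R.μ Dt.R.F := hcomp.frame.frame
  have hray : T5.IsRayGen Dt.R.r := hcomp.frame.ray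
  have hu : Dt.u.asIdeal ∣ Dt.𝔫 g := hDt.u_level g hg
  have hF := hForm Dt.R.μ Dt.R.F Dt.R.r (Dt.𝔫 g) hlev hfr hray
  have hS := hSub (Dt.𝔫 g) Dt.R.r Dt.u
  have hO := hOps (Dt.𝔫 g) Dt.R.r Dt.u H z hlev hray hu hH hz
  obtain ⟨w, J, c, hW⟩ := hWB Dt.R.μ Dt.R.F Dt.R.r (Dt.𝔫 g) Dt.u hlev hfr hray hu hcplx
  have htest : T5.IsTestFn (Dt.𝔫 g) T5.trivType (Dt.f g [] 0 0) :=
    (hDt.ekprod_down g [] 0 0 hg (fun x hx => absurd hx (List.not_mem_nil))).1
  have hmemW : ∀ a, ∀ x ∈ clsSpan w J c a, InW (Dt.𝔫 g) Dt.R.r Dt.u x :=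
    fun a x hx => clsSpan_le534 hS w J c hW.eig a hx
  -- the hypotheses of the Schur leaf
  have hadd : ∀ a : EigData K, ∀ x ∈ clsSpan w J c a, ∀ y ∈ clsSpan w J c a,
      iwOp Dt.u H (x + y) = iwOp Dt.u H x + iwOp Dt.u H y ∧
      T5.Rconv Dt.R.μ (Dt.f g [] 0 0) (x + y)
        = T5.Rconv Dt.R.μ (Dt.f g [] 0 0) x + T5.Rconv Dt.R.μ (Dt.f g [] 0 0) y ∧
      ∀ k : ℤ, shiftOp z k (x + y) = shiftOp z k x + shiftOp z k y := by
    intro a x hx y hy
    exact ⟨iwOp_add534 _ _ x y,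
      hF.conv_add _ x y htest (hmemW a x hx).inV (hmemW a y hy).inV,
      fun k => shiftOp_add534 z k x y⟩
  have hsmul : ∀ (a : EigData K) (t : ℂ), ∀ x ∈ clsSpan w J c a,
      iwOp Dt.u H (t • x) = t • iwOp Dt.u H x ∧
      T5.Rconv Dt.R.μ (Dt.f g [] 0 0) (t • x) = t • T5.Rconv Dt.R.μ (Dt.f g [] 0 0) x ∧
      ∀ k : ℤ, shiftOp z k (t • x) = t • shiftOp z k x := by
    intro a t x hx
    exact ⟨iwOp_smul534 _ _ t x, hF.conv_smul _ t x htest (hmemW a x hx).inV,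
      fun k => shiftOp_smul534 z k t x⟩
  have hpres : ∀ a : EigData K, ∀ x ∈ clsSpan w J c a,
      iwOp Dt.u H x ∈ clsSpan w J c a ∧
      T5.Rconv Dt.R.μ (Dt.f g [] 0 0) x ∈ clsSpan w J c a ∧
      ∀ k : ℤ, shiftOp z k x ∈ clsSpan w J c a := by
    intro a x hx
    by_cases hne : ∃ j, j ∈ J ∧ c j = a
    · obtain ⟨j₀, hj₀, rfl⟩ := hne
      have hxc := inCls_of_mem534 hS w J c hW.eig j₀ hj₀ x hx
      exact ⟨hW.exhaust j₀ hj₀ _ (hO.iw _ _ hxc),
        hW.exhaust j₀ hj₀ _ (hDt.class_down g hg x (c j₀) hxc),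
        fun k => hW.exhaust j₀ hj₀ _ (hO.shift _ _ k hxc)⟩
    · rw [clsSpan_eq_bot534 w J c a hne] at hx ⊢
      rw [Submodule.mem_bot] at hx
      subst hx
      simp only [Submodule.mem_bot]
      exact ⟨iwOp_zero534 _ _, rconv_zero534 _ _, fun k => shiftOp_zero0_534 z k⟩
  have hcomm : ∀ a : EigData K, ∀ x ∈ clsSpan w J c a,
      T5.Rconv Dt.R.μ (Dt.f g [] 0 0) (iwOp Dt.u H x)
        = iwOp Dt.u H (T5.Rconv Dt.R.μ (Dt.f g [] 0 0) x) ∧
      (∀ k : ℤ, T5.Rconv Dt.R.μ (Dt.f g [] 0 0) (shiftOp z k x)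
        = shiftOp z k (T5.Rconv Dt.R.μ (Dt.f g [] 0 0) x)) ∧
      ∀ k : ℤ, iwOp Dt.u H (shiftOp z k x) = shiftOp z k (iwOp Dt.u H x) := by
    intro a x hx
    have hc := hDt.comm_down g hg x (hmemW a x hx) H z hH hz
    exact ⟨funext hc.1, fun k => funext (hc.2 k), fun k => hO.comm x k⟩
  have hgrp : ∀ a : EigData K, ∀ x ∈ clsSpan w J c a,
      shiftOp z 0 x = x ∧ ∀ k k' : ℤ, shiftOp z (k + k') x = shiftOp z k (shiftOp z k' x) :=
    fun a x _ => ⟨shiftOp_zero534 z x, fun k k' => shiftOp_shiftOp534 z k k' x⟩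
  obtain ⟨e, b, l, x, he, hnorm, horth, hpars, htri, hjoint⟩ :=
    hSchur (G K → ℂ) (T5.innerD Dt.R.μ Dt.R.F) (wSub534 hS) (EigData K) w J c
      (shiftOp z) (iwOp Dt.u H) (T5.Rconv Dt.R.μ (Dt.f g [] 0 0))
      (fun x hx y hy z hz => hF.add_left x y z (InW.inV hx) (InW.inV hy) (InW.inV hz))
      (fun a x hx y hy => hF.smul_left a x y (InW.inV hx) (InW.inV hy))
      (fun x hx y hy => hF.conj_symm x y (InW.inV hx) (InW.inV hy))
      (fun x hx => hF.nonneg x (InW.inV hx))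
      (fun x hx => hF.definite x (InW.inV hx))
      (fun j hj => (hW.eig j hj).inW)
      hW.norm_one hW.orth
      (fun χ hχ => hW.parseval χ hχ)
      hW.finite hadd hsmul hpres hcomm hgrp
  have heW : ∀ j, j ∈ J → InW (Dt.𝔫 g) Dt.R.r Dt.u (e j) := fun j hj => hmemW _ _ (he j hj)
  -- the complement
  obtain ⟨p, hpS, hporth, hpnorm, hppars⟩ :=
    hSeq Dt.R.μ Dt.R.F Dt.R.r (Dt.𝔫 g) hlev hfr hray
      (fun f => InV (Dt.𝔫 g) Dt.R.r f ∧
        ∀ χ : G K → ℂ, InW (Dt.𝔫 g) Dt.R.r Dt.u χ → T5.innerD Dt.R.μ Dt.R.F f χ = 0)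
      (fun f hf => hf.1)
      ⟨hS.zeroW.inV, fun χ _ => innerD_zero_left0_534 _ _ χ⟩
      (fun f f' hf hf' => ⟨hS.addV _ _ hf.1 hf'.1, fun χ hχ => by
        rw [hF.add_left f f' χ hf.1 hf'.1 hχ.inV, hf.2 χ hχ, hf'.2 χ hχ, add_zero]⟩)
      (fun a f hf => ⟨hS.smulV a f hf.1, fun χ hχ => by
        rw [hF.smul_left a f χ hf.1 hχ.inV, hf.2 χ hχ, mul_zero]⟩)
  -- the sequence
  have hmixI : ∀ i, (i % 2 = 0 ∧ i / 2 ∈ J) → mix534 e p J i = e (i / 2) := by
    intro i hi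
    unfold mix534
    rw [if_pos hi.1, if_pos hi.2]
  refine ⟨mix534 e p J, {i | i % 2 = 0 ∧ i / 2 ∈ J}, fun i => c (i / 2), fun i => b (i / 2),
    fun i => l (i / 2), fun i => x (i / 2), Real.sqrt (Ideal.absNorm Dt.u.asIdeal : ℝ),
    ⟨⟨?_, ?_, ?_, ?_⟩, ?_, ?_, ?_, ?_, ?_, ?_⟩⟩
  · -- cusp
    intro i
    rcases mix_cases534 e p J i with ⟨n, -, hn, h⟩ | ⟨n, -, -, h⟩ | ⟨n, -, h⟩
    · rw [h]; exact (heW n hn).inV
    · rw [h]; exact hS.zeroW.inV
    · rw [h]; exact (hpS n).1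
  · -- orth
    intro i j hij
    rcases mix_cases534 e p J i with ⟨n, hi, hn, h⟩ | ⟨n, hi, -, h⟩ | ⟨n, hi, h⟩ <;>
    rcases mix_cases534 e p J j with ⟨n', hj, hn', h'⟩ | ⟨n', hj, -, h'⟩ | ⟨n', hj, h'⟩ <;>
    rw [h, h']
    · exact horth n hn n' hn' (fun hnn => hij (by rw [hi, hj, hnn]))
    · exact innerD_zero_right534 _ _ _
    · rw [hF.conj_symm (p n') (e n) (hpS n').1 (heW n hn).inV, (hpS n').2 (e n) (heW n hn),
        map_zero]
    · exact innerD_zero_left0_534 _ _ _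
    · exact innerD_zero_left0_534 _ _ _
    · exact innerD_zero_left0_534 _ _ _
    · exact (hpS n).2 (e n') (heW n' hn')
    · exact innerD_zero_right534 _ _ _
    · exact hporth n n' (fun hnn => hij (by rw [hi, hj, hnn]))
  · -- norm
    intro i
    rcases mix_cases534 e p J i with ⟨n, -, hn, h⟩ | ⟨n, -, -, h⟩ | ⟨n, -, h⟩
    · rw [h]; exact Or.inl (hnorm n hn)
    · rw [h]; exact Or.inr (fun _ => rfl)
    · rw [h]
      rcases hpnorm n with h1 | h0
      · exact Or.inl h1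
      · exact Or.inr (fun y => by rw [h0]; rfl)
  · -- complete
    intro f hf
    exact complete_mix534 hF hS e p J heW hpars (fun n => (hpS n).1) (fun n => (hpS n).2)
      (fun f hf h => hppars f ⟨hf, h⟩) f hf (hDt.proj_down g hg f hf)
  · -- perp
    intro i hi χ hχ
    rcases mix_cases534 e p J i with ⟨n, hin, hn, h⟩ | ⟨n, -, -, h⟩ | ⟨n, -, h⟩
    · exfalso
      apply hi
      refine ⟨by omega, ?_⟩
      have : i / 2 = n := by omega
      rw [this]
      exact hn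
    · rw [h]; exact innerD_zero_left0_534 _ _ _
    · rw [h]; exact (hpS n).2 χ hχ
  · -- eig
    intro i hi
    rw [hmixI i hi]
    exact inCls_of_mem534 hS w J c hW.eig (i / 2) hi.2 _ (he (i / 2) hi.2)
  · -- ne
    intro i hi
    rw [hmixI i hi]
    by_contra hcon
    have h0 : e (i / 2) = 0 := by
      funext y
      by_contra hy
      exact hcon ⟨y, hy⟩
    have h1 := hnorm (i / 2) hi.2
    rw [h0, innerD_zero_left0_534] at h1
    exact zero_ne_one h1
  · -- unit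
    intro i hi
    exact hW.unit (i / 2) hi.2
  · -- tri
    intro i hi k m
    rw [hmixI i hi]
    exact htri (i / 2) hi.2 k m
  · -- reg
    intro i hi
    obtain ⟨y, hy, hy0, hyZ, hyU⟩ := hjoint (i / 2) hi.2
    refine hReg Dt.R.μ Dt.R.F Dt.R.r (Dt.𝔫 g) Dt.u H z hlev hfr hray hu hH hz y _ _
      (hmemW _ y hy) ?_ hyZ hyU
    by_contra hcon
    apply hy0
    funext t
    by_contra ht
    exact hcon ⟨t, ht⟩

end Top

/-- **THE NODE T7.L2.3 FROM ITS TWELVE LEAVES.** -/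
theorem specDownC_of_leaves534 {K K' : Type} [Field K] [NumberField K] [Field K']
    [NumberField K'] [Algebra K K'] (hStf : StfIdC K) (hIw : IwSysC K) (hBC : BCDataC K K')
    (hRD : ResDegC K K') (hBU : BCUnitC K K') (hForm : CuspFormC K) (hSub : WSubC K)
    (hOps : OpsClassC K) (hWB : WBasisC K) (hSchur : SchurSeqC) (hReg : RegParamFnC K)
    (hSeq : SubSeqC K) : SpecDownC K K' :=
  specDownC_of534 hStf hIw hBC hRD hBU
    (downBasisC_of534 hForm hSub hOps hWB hSchur hReg hSeq)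

end Fermat.Agent.LT.T7.SD534

end
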