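import Mathlib
import Fermat.Agent.LT.T7.H534.DownBasisSpec

/-!
# Row LT, tower T7, NODE T7.L2.3.5.4 `SD534.WBasisC` -- THE CUT, level 3 (helper534)

OFF-MAIN.  Definitions and frozen Props; the assembly `wBasisC_of534` is in `WBasisTop.lean`.
No hole, nothing assumed.  ADDITIVE.

    WBasisC K  ⟸  CuspFormC K + V2SubC K + V2BasisC K + IwProjC K + ProjBasisC

Notation: `V₂` = the cusp functions of T2 of level `𝔫` (`InV2` = `T7.IsWFn` for the EMPTY orbit:
invariant under the positive scalars at every infinite place; `T2.isWFn_zero_iff130`),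
`W ⊆ V₂` = the members which are invariant under the Iwahori subgroup at `u` (`InW`).

* `V2SubC`    : `V₂` and its eigen-classes are linear subspaces, `W ⊆ V₂ ⊆ V`.
* `V2BasisC` (tower T2 + the scalar lemma of helper291): an orthonormal sequence of joint
  eigenfunctions, complete in `V₂`, with FINITE classes (per `EigData`, normalised) which
  EXHAUST the eigenfunctions.
* `IwProjC`   : the Iwahori projector `P` = the average over `I_u / U(𝔫)_u`: linear, `V₂ → W`,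
  `⟨P ψ, χ⟩ = ⟨ψ, χ⟩` for `χ ∈ W`, and `P` preserves the eigen-data.
* `ProjBasisC` (MATHLIB ONLY, abstract): an orthonormal sequence with finite classes which is
  complete in `V`, and a projector `P` onto `W` which preserves the class spaces, give an
  orthonormal sequence with finite classes which is complete in `W` and exhausts
  `W ∩ (class space)`.
-/

set_option autoImplicit false
set_option linter.unusedSectionVars false
set_option linter.unusedVariables false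

open AutomorphicForm IsDedekindDomain NumberField MeasureTheory
open scoped ComplexConjugate

noncomputable section

namespace Fermat.Agent.LT.T7.SD534

open Fermat.Agent.LT.H556 Fermat.Agent.LT.H556.A0 Fermat.Agent.LT.T7

attribute [local instance] Fermat.Agent.LT.T5.instMeasurableSpaceG

section Defs

variable {K : Type} [Field K] [NumberField K]

/-- `ψ ∈ V₂`: a cusp function invariant under the positive scalars at every infinite place
(`IsWFn` for the empty orbit; the place `u` is a dummy). -/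
def InV2 (𝔫 : Ideal (𝓞 K)) (r : G K) (u : HeightOneSpectrum (𝓞 K)) (ψ : G K → ℂ) : Prop :=
  IsWFn 𝔫 r 0 (fun _ => u) ψ

/-- `ψ` is a member of `V₂` with joint eigen-data `c`. -/
def InCls2 (𝔫 : Ideal (𝓞 K)) (r : G K) (u : HeightOneSpectrum (𝓞 K)) (c : EigData K)
    (ψ : G K → ℂ) : Prop :=
  IsEigFn 𝔫 r 0 (fun _ => u) ψ c

/-- `V₂` and its classes are linear subspaces; `W ⊆ V₂ ⊆ V`. -/
structure IsV2Sub (𝔫 : Ideal (𝓞 K)) (r : G K) (u : HeightOneSpectrum (𝓞 K)) : Prop where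
  zero2 : InV2 𝔫 r u (0 : G K → ℂ)
  add2 : ∀ f f' : G K → ℂ, InV2 𝔫 r u f → InV2 𝔫 r u f' → InV2 𝔫 r u (f + f')
  smul2 : ∀ (a : ℂ) (f : G K → ℂ), InV2 𝔫 r u f → InV2 𝔫 r u (a • f)
  addC2 : ∀ (c : EigData K) (f f' : G K → ℂ), InCls2 𝔫 r u c f → InCls2 𝔫 r u c f' →
    InCls2 𝔫 r u c (f + f')
  smulC2 : ∀ (c : EigData K) (a : ℂ) (f : G K → ℂ), InCls2 𝔫 r u c f →
    InCls2 𝔫 r u c (a • f)
  w_le : ∀ χ : G K → ℂ, InW 𝔫 r u χ → InV2 𝔫 r u χ

/-- An orthonormal sequence of joint eigenfunctions, complete in `V₂`, with finite classes which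
exhaust the eigenfunctions. -/
structure IsV2Basis (μ : Measure (G K)) (F : Set (G K)) (r : G K) (𝔫 : Ideal (𝓞 K))
    (u : HeightOneSpectrum (𝓞 K)) (v : ℕ → G K → ℂ) (J : Set ℕ) (c : ℕ → EigData K) :
    Prop where
  eig : ∀ j, j ∈ J → InCls2 𝔫 r u (c j) (v j)
  unit : ∀ j, j ∈ J → IsUnitOut 𝔫 (c j)
  norm_one : ∀ j, j ∈ J → T5.innerD μ F (v j) (v j) = 1
  orth : ∀ i, i ∈ J → ∀ j, j ∈ J → i ≠ j → T5.innerD μ F (v i) (v j) = 0
  parseval : ∀ ψ : G K → ℂ, InV2 𝔫 r u ψ →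
    HasSum (fun j : J => ‖T5.innerD μ F ψ (v j)‖ ^ 2) (T5.innerD μ F ψ ψ).re
  finite : ∀ j₀, j₀ ∈ J → {j : ℕ | j ∈ J ∧ c j = c j₀}.Finite
  exhaust : ∀ j₀, j₀ ∈ J → ∀ ψ : G K → ℂ, InCls2 𝔫 r u (c j₀) ψ → ψ ∈ clsSpan v J c (c j₀)

/-- The Iwahori projector. -/
structure IsIwProj (μ : Measure (G K)) (F : Set (G K)) (r : G K) (𝔫 : Ideal (𝓞 K))
    (u : HeightOneSpectrum (𝓞 K)) (P : (G K → ℂ) → (G K → ℂ)) : Prop where
  add : ∀ ψ ψ' : G K → ℂ, P (ψ + ψ') = P ψ + P ψ'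
  smul : ∀ (a : ℂ) (ψ : G K → ℂ), P (a • ψ) = a • P ψ
  mem : ∀ ψ : G K → ℂ, InV2 𝔫 r u ψ → InW 𝔫 r u (P ψ)
  inner : ∀ ψ : G K → ℂ, InV2 𝔫 r u ψ → ∀ χ : G K → ℂ, InW 𝔫 r u χ →
    T5.innerD μ F (P ψ) χ = T5.innerD μ F ψ χ
  cls : ∀ (c : EigData K) (ψ : G K → ℂ), InCls2 𝔫 r u c ψ → InCls 𝔫 r u c (P ψ)

end Defs

/-! ## The leaves -/

section Leaves

variable (K : Type) [Field K] [NumberField K]

/-- **WB.1 SUBSPACES of `V₂`.**  (As `WSubC`, for the empty orbit; `W ⊆ V₂`: an element which is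
trivial at every place is in the Iwahori subgroup at `u`.) -/
def V2SubC : Prop :=
  ∀ (𝔫 : Ideal (𝓞 K)) (r : G K) (u : HeightOneSpectrum (𝓞 K)), IsV2Sub 𝔫 r u

/-- **WB.2 = NODE `V₂`-BASIS** (tower T2: `T2.wBasis0_130` of `T2/AdapterW.lean`,
`exists_natBasis130`, `finite_class130`; and the scalar lemma of helper291: the convolutions by
the approximate identity act on an eigenfunction of the sphere means by a scalar which depends
on the eigen-data only, so the classes PER `EigData` are finite).  The eigen-data are NORMALISED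
(`0` at the places dividing `𝔫` and at the radii `d ≤ 0`): same class ⟺ EQUAL data.
Exhaustion: an eigenfunction with the data of a class is orthogonal to the members of the other
classes (`T_v`, `S_v` normal, the means self-adjoint: `T2.OpsAdj`), hence in the span of its
class (Parseval + definiteness). -/
def V2BasisC : Prop :=
  ∀ (μ : Measure (G K)) (F : Set (G K)) (r : G K) (𝔫 : Ideal (𝓞 K))
    (u : HeightOneSpectrum (𝓞 K)), 𝔫 ≠ ⊥ → T5.IsFrame μ F → T5.IsRayGen r → TotCplx K →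
      ∃ (v : ℕ → G K → ℂ) (J : Set ℕ) (c : ℕ → EigData K), IsV2Basis μ F r 𝔫 u v J c

/-- **WB.3 IWAHORI PROJECTOR.**  For `u ∣ 𝔫`: `P ψ = |H₀|⁻¹ ∑_{h ∈ H₀} ψ(· h)`, `H₀` a system of
representatives of `I_u / U(𝔫)_u` (elements at `u`).  `P ψ` is Iwahori invariant; the elements
at `u` commute with the Hecke operators at `v ∤ 𝔫` and with the means; right translation by
`h ∈ I_u` preserves `⟨ , ⟩` (`transl429`) and fixes `χ ∈ W`. -/
def IwProjC : Prop :=
  ∀ (μ : Measure (G K)) (F : Set (G K)) (r : G K) (𝔫 : Ideal (𝓞 K))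
    (u : HeightOneSpectrum (𝓞 K)), 𝔫 ≠ ⊥ → T5.IsFrame μ F → T5.IsRayGen r → u.asIdeal ∣ 𝔫 →
      ∃ P : (G K → ℂ) → (G K → ℂ), IsIwProj μ F r 𝔫 u P

end Leaves

/-- **WB.4 PROJ-BASIS (MATHLIB ONLY, abstract).**  `form` a positive definite hermitian form on
the subspace `V` of `M` (linear in the FIRST variable), `W ≤ V`, `v` an orthonormal sequence
(index set `J₀`) which is complete in `V`, with finite classes `cl₀`; `P` linear, `P V ⊆ W`,
`form (P x) χ = form x χ` for `x ∈ V`, `χ ∈ W`, and `P` preserves the class spaces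
`E a = clsSpan v J₀ cl₀ a`.  Then there is an orthonormal sequence `w` (index set `J`, classes
`cl`) of members of `W ∩ E (cl j)`, complete in `W`, with finite classes, every class of `w` is
a class of `v`, and `W ∩ E a ⊆ clsSpan w J cl a`.
Proof: `P x = x` on `W` (definiteness); `P` is symmetric on `V`; `E a` is finite dimensional and
`P E a = W ∩ E a`; an orthonormal basis of each `W ∩ E a` (Gram--Schmidt), indexed by a part of
the class `a`; for `χ ∈ W` the component `π_a χ` of `χ` in `E a` lies in `W` (`P π_a χ - π_a χ`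
is in `E a` and orthogonal to `E a`); Parseval is regrouped class by class. -/
def ProjBasisC : Prop :=
  ∀ (M : Type) [AddCommGroup M] [Module ℂ M] (form : M → M → ℂ) (V W : Submodule ℂ M)
    (A : Type) (v : ℕ → M) (J₀ : Set ℕ) (cl₀ : ℕ → A) (P : M → M),
    W ≤ V →
    (∀ x ∈ V, ∀ y ∈ V, ∀ z ∈ V, form (x + y) z = form x z + form y z) →
    (∀ (a : ℂ), ∀ x ∈ V, ∀ y ∈ V, form (a • x) y = a * form x y) →
    (∀ x ∈ V, ∀ y ∈ V, form y x = conj (form x y)) →
    (∀ x ∈ V, 0 ≤ (form x x).re) →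
    (∀ x ∈ V, form x x = 0 → x = 0) →
    (∀ j ∈ J₀, v j ∈ V) →
    (∀ j ∈ J₀, form (v j) (v j) = 1) →
    (∀ i ∈ J₀, ∀ j ∈ J₀, i ≠ j → form (v i) (v j) = 0) →
    (∀ ψ ∈ V, HasSum (fun j : J₀ => ‖form ψ (v j)‖ ^ 2) (form ψ ψ).re) →
    (∀ j₀ ∈ J₀, {j : ℕ | j ∈ J₀ ∧ cl₀ j = cl₀ j₀}.Finite) →
    (∀ x y : M, P (x + y) = P x + P y) →
    (∀ (a : ℂ) (x : M), P (a • x) = a • P x) →
    (∀ x ∈ V, P x ∈ W) →
    (∀ x ∈ V, ∀ χ ∈ W, form (P x) χ = form x χ) →
    (∀ a : A, ∀ x ∈ clsSpan v J₀ cl₀ a, P x ∈ clsSpan v J₀ cl₀ a) →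
    ∃ (w : ℕ → M) (J : Set ℕ) (cl : ℕ → A),
      (∀ j ∈ J, w j ∈ W ∧ w j ∈ clsSpan v J₀ cl₀ (cl j)) ∧
      (∀ j ∈ J, ∃ j₀ ∈ J₀, cl₀ j₀ = cl j) ∧
      (∀ j ∈ J, form (w j) (w j) = 1) ∧
      (∀ i ∈ J, ∀ j ∈ J, i ≠ j → form (w i) (w j) = 0) ∧
      (∀ χ ∈ W, HasSum (fun j : J => ‖form χ (w j)‖ ^ 2) (form χ χ).re) ∧
      (∀ j₁ ∈ J, {j : ℕ | j ∈ J ∧ cl j = cl j₁}.Finite) ∧
      ∀ a : A, ∀ x ∈ W, x ∈ clsSpan v J₀ cl₀ a → x ∈ clsSpan w J cl a

end Fermat.Agent.LT.T7.SD534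

end
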