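import Mathlib
import Fermat.Agent.LT.T7.H305.MatchCut
import Fermat.Agent.LT.T7.H159.RestrGL
import Fermat.Agent.LT.T7.H165.IsoCont
import Fermat.Agent.LT.H11.LC

/-!
# Row LT, tower T7, node `H1U.FinPartUpQC` (registry row 2861; helper534, spare): local kit

OFF-MAIN.  No hole, nothing assumed.  ADDITIVE (suffix `534`).

* `isLocHaar_unique534`: the normalised Haar measure of `GL₂(K_v)` (level `n`) is unique;
* `glEquiv534 i`: the homeomorphism `GL₂(k) ≃ GL₂(k')` of a valuation preserving isomorphism;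
* `isLocHaar_map534`: it maps normalised Haar measures to normalised Haar measures.
-/

set_option autoImplicit false
set_option linter.style.haveILetI false
set_option linter.unusedSectionVars false

open AutomorphicForm IsDedekindDomain NumberField MeasureTheory

noncomputable section

namespace Fermat.Agent.LT.T7.FPU534

open Fermat.Agent.LT.H556 Fermat.Agent.LT.H556.A0 Fermat.Agent.LT.T7 Fermat.Agent.LT

variable {K : Type} [Field K] [NumberField K]

theorem t2_GLv534 (v : HeightOneSpectrum (𝓞 K)) :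
    T2Space (GL (Fin 2) (v.adicCompletion K)) := by
  have := H11.LC.t2Space_matrix_h11 (Fin 2) (v.adicCompletion K)
  infer_instance

/-- The normalised Haar measure of `GL₂(K_v)` is unique. -/
theorem isLocHaar_unique534 (v : HeightOneSpectrum (𝓞 K)) (n : ℕ)
    (μ₁ μ₂ : @Measure (GL (Fin 2) (v.adicCompletion K)) (borel _))
    (h₁ : H305.IsLocHaar305 n μ₁) (h₂ : H305.IsLocHaar305 n μ₂) : μ₁ = μ₂ := by
  letI : MeasurableSpace (GL (Fin 2) (v.adicCompletion K)) := borel _
  haveI : BorelSpace (GL (Fin 2) (v.adicCompletion K)) := ⟨rfl⟩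
  haveI := t2_GLv534 (K := K) v
  haveI := H11.LC.locallyCompactSpace_GL2_adicCompletion_h11 K v
  haveI := H159.secondCountable_GLv159 K v
  haveI : μ₁.IsHaarMeasure := h₁.1
  haveI : μ₂.IsHaarMeasure := h₂.1
  have e := Measure.isMulLeftInvariant_eq_smul μ₁ μ₂
  have e1 : μ₁ {g | T6.InU n g} = (Measure.haarScalarFactor μ₁ μ₂ • μ₂) {g | T6.InU n g} := by
    rw [← e]
  rw [Measure.smul_apply, h₁.2, h₂.2] at e1
  have e2 : (Measure.haarScalarFactor μ₁ μ₂ : ENNReal) = 1 := by
    rw [ENNReal.smul_def, smul_eq_mul, mul_one] at e1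
    exact e1.symm
  have e3 : Measure.haarScalarFactor μ₁ μ₂ = 1 := by exact_mod_cast e2
  rw [e, e3, one_smul]

section Iso

variable {k k' : Type} [Field k] [Field k'] [Valued k T6.Γ₀] [Valued k' T6.Γ₀]

theorem val_symm534 (i : k ≃+* k') (hi : ∀ x : k, Valued.v (i x) = Valued.v x) (y : k') :
    Valued.v (i.symm y) = Valued.v y := by
  rw [← hi (i.symm y), RingEquiv.apply_symm_apply]

theorem continuous_glMap534 (i : k →+* k') (hi : ∀ x : k, Valued.v (i x) = Valued.v x) :
    Continuous (Matrix.GeneralLinearGroup.map (n := Fin 2) i) :=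
  (H165.isoContC165 k k' 1 i one_pos (fun x => by rw [hi, pow_one])).2

/-- The isomorphism `GL₂(k) ≃* GL₂(k')`. -/
def glMulEquiv534 (i : k ≃+* k') : GL (Fin 2) k ≃* GL (Fin 2) k' where
  toFun := Matrix.GeneralLinearGroup.map (n := Fin 2) (i : k →+* k')
  invFun := Matrix.GeneralLinearGroup.map (n := Fin 2) (i.symm : k' →+* k)
  left_inv g := by
    apply Units.ext
    ext a b
    simp [Matrix.GeneralLinearGroup.map_apply]
  right_inv g := by
    apply Units.ext
    ext a b
    simp [Matrix.GeneralLinearGroup.map_apply]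
  map_mul' := map_mul _

theorem glMulEquiv_apply534 (i : k ≃+* k') (g : GL (Fin 2) k) :
    glMulEquiv534 i g = Matrix.GeneralLinearGroup.map (n := Fin 2) (i : k →+* k') g := rfl

theorem glMulEquiv_symm_apply534 (i : k ≃+* k') (g : GL (Fin 2) k') :
    (glMulEquiv534 i).symm g
      = Matrix.GeneralLinearGroup.map (n := Fin 2) (i.symm : k' →+* k) g := rfl

/-- The homeomorphism `GL₂(k) ≃ GL₂(k')` of a valuation preserving isomorphism. -/
def glHomeo534 (i : k ≃+* k') (hi : ∀ x : k, Valued.v (i x) = Valued.v x) :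
    GL (Fin 2) k ≃ₜ GL (Fin 2) k' where
  toEquiv := (glMulEquiv534 i).toEquiv
  continuous_toFun := continuous_glMap534 (i : k →+* k') hi
  continuous_invFun := continuous_glMap534 (i.symm : k' →+* k) (val_symm534 i hi)

theorem inU_glMap534 (i : k →+* k') (hi : ∀ x : k, Valued.v (i x) = Valued.v x) (n : ℕ)
    (g : GL (Fin 2) k) :
    T6.InU n (Matrix.GeneralLinearGroup.map (n := Fin 2) i g) ↔ T6.InU n g := by
  have key : ∀ (h : GL (Fin 2) k) (a b : Fin 2),
      Valued.v ((Matrix.GeneralLinearGroup.map (n := Fin 2) i h :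
          Matrix (Fin 2) (Fin 2) k') a b - (1 : Matrix (Fin 2) (Fin 2) k') a b)
        = Valued.v ((h : Matrix (Fin 2) (Fin 2) k) a b - (1 : Matrix (Fin 2) (Fin 2) k) a b) := by
    intro h a b
    rw [← hi]
    congr 1
    rw [map_sub]
    congr 1
    by_cases hab : a = b
    · subst hab
      simp
    · simp [Matrix.one_apply_ne hab]
  have hinv : (Matrix.GeneralLinearGroup.map (n := Fin 2) i g)⁻¹
      = Matrix.GeneralLinearGroup.map (n := Fin 2) i g⁻¹ := (map_inv _ g).symm
  unfold T6.InU
  constructor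
  · intro h a b
    have := h a b
    rw [hinv, key, key] at this
    exact this
  · intro h a b
    rw [hinv, key, key]
    exact h a b

end Iso

/-- A valuation preserving isomorphism maps normalised Haar measures to normalised Haar
measures. -/
theorem isLocHaar_map534 {k k' : Type} [Field k] [Field k'] [Valued k T6.Γ₀] [Valued k' T6.Γ₀]
    (i : k ≃+* k') (hi : ∀ x : k, Valued.v (i x) = Valued.v x) (n : ℕ)
    (μ : @Measure (GL (Fin 2) k) (borel _)) (hμ : H305.IsLocHaar305 n μ) :
    H305.IsLocHaar305 n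
      (@Measure.map _ _ (borel _) (borel _)
        (Matrix.GeneralLinearGroup.map (n := Fin 2) (i : k →+* k')) μ) := by
  letI : MeasurableSpace (GL (Fin 2) k) := borel _
  haveI : BorelSpace (GL (Fin 2) k) := ⟨rfl⟩
  letI : MeasurableSpace (GL (Fin 2) k') := borel _
  haveI : BorelSpace (GL (Fin 2) k') := ⟨rfl⟩
  haveI : μ.IsHaarMeasure := hμ.1
  have hc := continuous_glMap534 (i : k →+* k') hi
  have hc' := continuous_glMap534 (i.symm : k' →+* k) (val_symm534 i hi)
  refine ⟨?_, ?_⟩
  · exact (glMulEquiv534 i).isHaarMeasure_map μ hc hc'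
  · have hemb : MeasurableEmbedding (Matrix.GeneralLinearGroup.map (n := Fin 2) (i : k →+* k')) :=
      (glHomeo534 i hi).measurableEmbedding
    rw [hemb.map_apply]
    have hset : (Matrix.GeneralLinearGroup.map (n := Fin 2) (i : k →+* k')) ⁻¹'
        {g | T6.InU n g} = {g | T6.InU n g} := by
      ext g
      exact inU_glMap534 (i : k →+* k') hi n g
    rw [hset]
    exact hμ.2

end Fermat.Agent.LT.T7.FPU534
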