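import Mathlib
import Fermat.Agent.LT.T7.H1U.FactIntUpQSpec
import Fermat.Agent.LT.T7.H1G.Fixed
import Fermat.Agent.LT.T7.H159.RestrGL
import Fermat.Agent.LT.T7.H558.SigmaLoc
import Fermat.Agent.LT.T7.H557.DescTriv
import Fermat.Agent.LT.T7.H534.FinPartLoc

/-!
# Row LT, tower T7, node `H1U.FinPartUpQC` (registry row 2861; helper534, spare): global kit

OFF-MAIN.  No hole, nothing assumed.  ADDITIVE (suffix `534`).

* `under_unique534`: the place under `w` is unique;
* `places_two534`: `K'/K` of degree `2`, two distinct places over `v`: there is no third one;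
* `exists_comp534`: an element of `GL₂(𝔸_K)` with given components at a finite set, `1` outside;
* `twIso534 s w : K_{σ⁻¹ w} ≃ K_w`: the local components of `σ_𝔸` (helper558 `sigmaLocC558`),
  `finGL_onG534`;
* `tw_eq_of_eq534`, `tw_eq_of_iso534`: the local component in the coordinates of a datum.
-/

set_option autoImplicit false
set_option linter.style.haveILetI false
set_option linter.unusedSectionVars false

open AutomorphicForm IsDedekindDomain NumberField MeasureTheory

noncomputable section

namespace Fermat.Agent.LT.T7.FPU534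

open Fermat.Agent.LT.H556 Fermat.Agent.LT.H556.A0 Fermat.Agent.LT.T7 Fermat.Agent.LT

section TwoFields

variable {K K' : Type} [Field K] [NumberField K] [Field K'] [NumberField K'] [Algebra K K']

/-- The place under `w` is unique. -/
theorem under_unique534 {v : HeightOneSpectrum (𝓞 K)} {w : HeightOneSpectrum (𝓞 K')}
    (h : PlaceOver K K' v w) : v = H1G.underP_H1G (K := K) w := by
  apply HeightOneSpectrum.ext
  ext x
  rw [h x (algebraMap (𝓞 K) (𝓞 K') x) rfl]
  exact Iff.rfl

theorem placeOver_unique534 {v v' : HeightOneSpectrum (𝓞 K)} {w : HeightOneSpectrum (𝓞 K')}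
    (h : PlaceOver K K' v w) (h' : PlaceOver K K' v' w) : v = v' :=
  (under_unique534 h).trans (under_unique534 h').symm

/-- `K'/K` Galois of degree `2`, two distinct places over `v`: there is no third one. -/
theorem places_two534 {l : ℕ} (hcyc : IsCycExt K K' l) (hl : l = 2)
    (v : HeightOneSpectrum (𝓞 K)) (w0 w1 w : HeightOneSpectrum (𝓞 K'))
    (h0 : PlaceOver K K' v w0) (h1 : PlaceOver K K' v w1) (hw : PlaceOver K K' v w)
    (hne : w1 ≠ w0) : w = w0 ∨ w = w1 := by
  haveI := hcyc.galois
  haveI := v.isPrime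
  haveI : v.asIdeal.IsMaximal := v.isMaximal
  have h3 := Ideal.ncard_primesOver_mul_ramificationIdxIn_mul_inertiaDegIn v.asIdeal (𝓞 K')
    Gal(K'/K)
  rw [IsGalois.card_aut_eq_finrank, hcyc.degree, hl] at h3
  by_contra hcon0
  have hcon := not_or.mp hcon0
  have hmem : ∀ w'' : HeightOneSpectrum (𝓞 K'), PlaceOver K K' v w'' →
      w''.asIdeal ∈ v.asIdeal.primesOver (𝓞 K') :=
    fun w'' hw'' => ⟨w''.isPrime, H557.placeOver_liesOver_557 hw''⟩
  have hsub : ({w0.asIdeal, w1.asIdeal, w.asIdeal} : Set (Ideal (𝓞 K')))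
      ⊆ v.asIdeal.primesOver (𝓞 K') := by
    intro I hI
    rcases hI with rfl | rfl | rfl
    · exact hmem w0 h0
    · exact hmem w1 h1
    · exact hmem w hw
  have hn0 : (v.asIdeal.primesOver (𝓞 K')).ncard ≠ 0 := by
    intro h0'
    rw [h0'] at h3
    simp at h3
  have hfin : (v.asIdeal.primesOver (𝓞 K')).Finite := Set.finite_of_ncard_ne_zero hn0
  have hcard : ({w0.asIdeal, w1.asIdeal, w.asIdeal} : Set (Ideal (𝓞 K'))).ncard = 3 := by
    refine Set.ncard_eq_three.2 ⟨_, _, _, ?_, ?_, ?_, rfl⟩
    · exact fun h => hne (HeightOneSpectrum.ext h.symm)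
    · exact fun h => hcon.1 (HeightOneSpectrum.ext h.symm)
    · exact fun h => hcon.2 (HeightOneSpectrum.ext h.symm)
  have hle3 : 3 ≤ (v.asIdeal.primesOver (𝓞 K')).ncard := by
    rw [← hcard]
    exact Set.ncard_le_ncard hsub hfin
  have hle2 : (v.asIdeal.primesOver (𝓞 K')).ncard ≤ 2 :=
    Nat.le_of_dvd (by norm_num) ⟨_, h3.symm⟩
  omega

end TwoFields

section OneField

variable {K : Type} [Field K] [NumberField K]

open Classical in
/-- An element of `GL₂(𝔸_K)` with given components at a finite set of places, `1` outside. -/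
theorem exists_comp534 (T : Finset (HeightOneSpectrum (𝓞 K)))
    (q : ∀ w : HeightOneSpectrum (𝓞 K), GL (Fin 2) (w.adicCompletion K)) :
    ∃ y : G K, H305.OutT305 T y ∧ ∀ w ∈ T, H305.finGL305 w y = q w := by
  set b : ∀ v : HeightOneSpectrum (𝓞 K), GL (Fin 2) (v.adicCompletion K) := fun v =>
    if v ∈ T then q v else 1 with hb
  have hb1 : ∀ v : HeightOneSpectrum (𝓞 K), v ∉ T → b v = 1 := fun v hv => if_neg hv
  have hb2 : ∀ v : HeightOneSpectrum (𝓞 K), v ∈ T → b v = q v := fun v hv => if_pos hv
  have hbint : ∀ᶠ v in Filter.cofinite, b v ∈ H159.intGL159 K v := by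
    rw [Filter.eventually_cofinite]
    refine T.finite_toSet.subset fun v hv => ?_
    by_contra hvS
    exact hv (by rw [hb1 v hvS]; exact (H159.intGL159 K v).one_mem)
  refine ⟨H159.mkGL159 (fun _ => 1) b hbint, ?_, ?_⟩
  · intro v hv
    change H305.finGL305 v (H159.mkGL159 (fun _ => 1) b hbint) ∈ H159.intGL159 K v
    have e : H305.finGL305 v (H159.mkGL159 (fun _ => 1) b hbint) = b v :=
      H159.mkGL_fin159 _ b hbint v
    rw [e, hb1 v hv]
    exact (H159.intGL159 K v).one_mem
  · intro w hw
    have e : H305.finGL305 w (H159.mkGL159 (fun _ => 1) b hbint) = b w :=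
      H159.mkGL_fin159 _ b hbint w
    rw [e, hb2 w hw]

theorem finGL_ratG534 (v : HeightOneSpectrum (𝓞 K)) (γ : GL (Fin 2) K) :
    H305.finGL305 v (T5.ratG γ) = H305.locG305 v γ := by
  apply Units.ext
  ext i j
  rfl

/-- The local component of `σ_𝔸` at `w`, from the completion at `σ⁻¹ w`. -/
def twIso534 (s : T5.AdelicAut K) (w : HeightOneSpectrum (𝓞 K)) :
    (H1G.preP_H1G s w).adicCompletion K ≃+* w.adicCompletion K :=
  Classical.choose ((H558.sigmaLocC558 (K := K) s).1 (H1G.preP_H1G s w) w
    (H1G.placeRel_preP_H1G s w))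

theorem twIso_rat534 (s : T5.AdelicAut K) (w : HeightOneSpectrum (𝓞 K)) (x : K) :
    twIso534 s w (algebraMap K ((H1G.preP_H1G s w).adicCompletion K) x)
      = algebraMap K (w.adicCompletion K) (s.σ x) :=
  (Classical.choose_spec ((H558.sigmaLocC558 (K := K) s).1 (H1G.preP_H1G s w) w
    (H1G.placeRel_preP_H1G s w))).1 x

theorem twIso_val534 (s : T5.AdelicAut K) (w : HeightOneSpectrum (𝓞 K))
    (x : (H1G.preP_H1G s w).adicCompletion K) :
    Valued.v (twIso534 s w x) = Valued.v x :=
  (Classical.choose_spec ((H558.sigmaLocC558 (K := K) s).1 (H1G.preP_H1G s w) w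
    (H1G.placeRel_preP_H1G s w))).2.1 x

theorem twIso_fin534 (s : T5.AdelicAut K) (w : HeightOneSpectrum (𝓞 K)) (a : Adl K) :
    T5.finHom w (s.σA a) = twIso534 s w (T5.finHom (H1G.preP_H1G s w) a) :=
  (Classical.choose_spec ((H558.sigmaLocC558 (K := K) s).1 (H1G.preP_H1G s w) w
    (H1G.placeRel_preP_H1G s w))).2.2 a

/-- The local component of `σ_𝔸` on `GL₂`. -/
def tw534 (s : T5.AdelicAut K) (w : HeightOneSpectrum (𝓞 K)) :
    GL (Fin 2) ((H1G.preP_H1G s w).adicCompletion K) →* GL (Fin 2) (w.adicCompletion K) :=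
  Matrix.GeneralLinearGroup.map (n := Fin 2)
    ((twIso534 s w : (H1G.preP_H1G s w).adicCompletion K ≃+* w.adicCompletion K) :
      (H1G.preP_H1G s w).adicCompletion K →+* w.adicCompletion K)

theorem continuous_tw534 (s : T5.AdelicAut K) (w : HeightOneSpectrum (𝓞 K)) :
    Continuous (tw534 s w) :=
  continuous_glMap534 _ (twIso_val534 s w)

theorem finGL_onG534 (s : T5.AdelicAut K) (w : HeightOneSpectrum (𝓞 K)) (y : G K) :
    H305.finGL305 w (s.onG y) = tw534 s w (H305.finGL305 (H1G.preP_H1G s w) y) := by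
  apply Units.ext
  refine Matrix.ext fun a b => ?_
  exact twIso_fin534 s w _

/-- The twisted component: `(y⁻¹ δ σ(y))_w = y_w⁻¹ δ_w s(y_{σ⁻¹ w})`. -/
theorem finGL_tw534 (s : T5.AdelicAut K) (w : HeightOneSpectrum (𝓞 K)) (δ : GL (Fin 2) K)
    (y : G K) :
    H305.finGL305 w (y⁻¹ * T5.ratG δ * s.onG y)
      = (H305.finGL305 w y)⁻¹ * H305.locG305 w δ
        * tw534 s w (H305.finGL305 (H1G.preP_H1G s w) y) := by
  rw [map_mul, map_mul, map_inv, finGL_ratG534, finGL_onG534]

/-- The local component of `σ_𝔸` at a place fixed by `σ`, in the coordinates of a datum. -/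
theorem tw_eq_of_eq534 (s : T5.AdelicAut K) (w : HeightOneSpectrum (𝓞 K))
    (hw : H1G.preP_H1G s w = w) (sw : w.adicCompletion K ≃+* w.adicCompletion K)
    (hsw : ∀ y : K, sw (algebraMap K (w.adicCompletion K) y)
      = algebraMap K (w.adicCompletion K) (s.σ y))
    (hval : ∀ y : w.adicCompletion K, Valued.v (sw y) = Valued.v y)
    (q : ∀ w' : HeightOneSpectrum (𝓞 K), GL (Fin 2) (w'.adicCompletion K)) :
    tw534 s w (q (H1G.preP_H1G s w)) = T6.glAut sw (q w) := by
  have key : ∀ (w'' : HeightOneSpectrum (𝓞 K)) (_ : w'' = w)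
      (t : w''.adicCompletion K ≃+* w.adicCompletion K),
      (∀ y : K, t (algebraMap K (w''.adicCompletion K) y)
        = algebraMap K (w.adicCompletion K) (s.σ y)) →
      (∀ y : w''.adicCompletion K, Valued.v (t y) = Valued.v y) →
      Matrix.GeneralLinearGroup.map (n := Fin 2)
        ((t : w''.adicCompletion K ≃+* w.adicCompletion K) :
          w''.adicCompletion K →+* w.adicCompletion K) (q w'') = T6.glAut sw (q w) := by
    intro w'' h t ht1 ht2
    subst h
    have e : ((t : w''.adicCompletion K ≃+* w''.adicCompletion K) :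
        w''.adicCompletion K →+* w''.adicCompletion K)
        = ((sw : w''.adicCompletion K ≃+* w''.adicCompletion K) :
          w''.adicCompletion K →+* w''.adicCompletion K) := by
      refine RingHom.ext fun c => ?_
      exact H1G.eq_of_val_of_rat_H1G w''
        ((t : w''.adicCompletion K ≃+* w''.adicCompletion K) :
          w''.adicCompletion K →+* w''.adicCompletion K)
        ((sw : w''.adicCompletion K ≃+* w''.adicCompletion K) :
          w''.adicCompletion K →+* w''.adicCompletion K) 1 1 one_pos one_pos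
        (fun c => by rw [pow_one]; exact ht2 c) (fun c => by rw [pow_one]; exact hval c)
        (fun y => by
          show t _ = sw _
          rw [ht1, hsw]) c
    unfold T6.glAut
    rw [e]
  exact key _ hw (twIso534 s w) (twIso_rat534 s w) (twIso_val534 s w)

end OneField

section Split

variable {F : Type} [Field F] [NumberField F]

/-- The local component of `σ_𝔸` at `w`, `σ⁻¹ w = w'`, in the coordinates of the identifications
`i : ℚ_v ≃ F_w`, `i' : ℚ_v ≃ F_{w'}`. -/
theorem tw_eq_of_iso534 (s : T5.AdelicAut F) (v : HeightOneSpectrum (𝓞 ℚ))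
    (w w' : HeightOneSpectrum (𝓞 F)) (hw : H1G.preP_H1G s w = w')
    (i : v.adicCompletion ℚ ≃+* w.adicCompletion F)
    (i' : v.adicCompletion ℚ ≃+* w'.adicCompletion F)
    (hi : ∀ x : ℚ, i (algebraMap ℚ (v.adicCompletion ℚ) x)
      = algebraMap F (w.adicCompletion F) (algebraMap ℚ F x))
    (hi' : ∀ x : ℚ, i' (algebraMap ℚ (v.adicCompletion ℚ) x)
      = algebraMap F (w'.adicCompletion F) (algebraMap ℚ F x))
    (hv : ∀ x : v.adicCompletion ℚ, Valued.v (i x) = Valued.v x)
    (hv' : ∀ x : v.adicCompletion ℚ, Valued.v (i' x) = Valued.v x)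
    (q : ∀ w'' : HeightOneSpectrum (𝓞 F), GL (Fin 2) (w''.adicCompletion F)) :
    tw534 s w (q (H1G.preP_H1G s w))
      = Matrix.GeneralLinearGroup.map (n := Fin 2)
          ((i : v.adicCompletion ℚ ≃+* w.adicCompletion F) :
            v.adicCompletion ℚ →+* w.adicCompletion F)
          (Matrix.GeneralLinearGroup.map (n := Fin 2)
            ((i'.symm : w'.adicCompletion F ≃+* v.adicCompletion ℚ) :
              w'.adicCompletion F →+* v.adicCompletion ℚ) (q w')) := by
  have key : ∀ (w'' : HeightOneSpectrum (𝓞 F)) (_ : w'' = w')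
      (t : w''.adicCompletion F ≃+* w.adicCompletion F),
      (∀ y : F, t (algebraMap F (w''.adicCompletion F) y)
        = algebraMap F (w.adicCompletion F) (s.σ y)) →
      (∀ y : w''.adicCompletion F, Valued.v (t y) = Valued.v y) →
      Matrix.GeneralLinearGroup.map (n := Fin 2)
        ((t : w''.adicCompletion F ≃+* w.adicCompletion F) :
          w''.adicCompletion F →+* w.adicCompletion F) (q w'')
      = Matrix.GeneralLinearGroup.map (n := Fin 2)
          ((i : v.adicCompletion ℚ ≃+* w.adicCompletion F) :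
            v.adicCompletion ℚ →+* w.adicCompletion F)
          (Matrix.GeneralLinearGroup.map (n := Fin 2)
            ((i'.symm : w'.adicCompletion F ≃+* v.adicCompletion ℚ) :
              w'.adicCompletion F →+* v.adicCompletion ℚ) (q w')) := by
    intro w'' h t ht1 ht2
    subst h
    have e : ∀ c : v.adicCompletion ℚ, t (i' c) = i c := by
      intro c
      exact H1G.eq_of_val_of_rat_H1G v
        (((t : w''.adicCompletion F ≃+* w.adicCompletion F) :
          w''.adicCompletion F →+* w.adicCompletion F).comp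
          ((i' : v.adicCompletion ℚ ≃+* w''.adicCompletion F) :
            v.adicCompletion ℚ →+* w''.adicCompletion F))
        ((i : v.adicCompletion ℚ ≃+* w.adicCompletion F) :
          v.adicCompletion ℚ →+* w.adicCompletion F) 1 1 one_pos one_pos
        (fun c => by
          rw [pow_one]
          show Valued.v (t (i' c)) = _
          rw [ht2, hv'])
        (fun c => by rw [pow_one]; exact hv c)
        (fun x => by
          show t (i' _) = i _
          rw [hi', hi, ht1]
          congr 1
          exact map_ratCast s.σ x) c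
    apply Units.ext
    refine Matrix.ext fun a b => ?_
    simp only [Matrix.GeneralLinearGroup.map_apply, RingHom.coe_coe]
    rw [← e, RingEquiv.apply_symm_apply]
  exact key _ hw (twIso534 s w) (twIso_rat534 s w) (twIso_val534 s w)

end Split

end Fermat.Agent.LT.T7.FPU534
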