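import Mathlib
import Fermat.Agent.LT.T7.H1U.FactIntUpQSpec
import Fermat.Agent.LT.T7.H159.BlockFubini
import Fermat.Agent.LT.T7.H514.UpFactQCoreOfW
import Fermat.Agent.LT.T7.H16.BiInvCont
import Fermat.Agent.LT.T7.H729.LocMeas
import Fermat.Agent.LT.T7.H534.FinPartGlob

/-!
# Row LT, tower T7, NODE B.4 `H1U.FinPartUpQC` (registry row 2861; helper534, SPARE): PROVED

OFF-MAIN.  No hole, nothing assumed.  ADDITIVE (suffix `534`).

    finPartUpQC534 (F) : H1U.FinPartUpQC F        -- VERBATIM vs H1U/FactIntUpQSpec.lean 921e1b93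

THE FINITE PLACES OF PART B UPSTAIRS over `ℚ`.  `μw` = THE normalised Haar measures (helper729
`locMeasC729`, unique: `isLocHaar_unique534`);

    Θ(p) = ∏_{w ∈ S'} φ₀_w(p_w⁻¹ δ_w s_w(p_{σ⁻¹ w})) · ∏_{v ∈ S} bet_v(p_{w0 v}),

`s_w : F_{σ⁻¹ w} ≃ F_w` the local components of `σ_𝔸` (helper558 `sigmaLocC558`).  The pull-back
is `finGL_tw534`; `Θ` is measurable (continuous factors); the integral is computed by the block
Fubini theorem of helper159 (`integral_block159`, blocks = the places over one `v ∈ S`): a block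
with one place gives `locTwInt340` (the `s_w` of the datum is the component of `σ_𝔸`:
`tw_eq_of_eq534`), a block with two places `w 0`, `w 1` gives `splitInt340` in the coordinates
`i j` (`tw_eq_of_iso534`, `places_two534`).
-/

set_option autoImplicit false
set_option linter.style.haveILetI false
set_option linter.unusedSectionVars false
set_option linter.unusedVariables false

open AutomorphicForm IsDedekindDomain NumberField MeasureTheory

noncomputable section

namespace Fermat.Agent.LT.T7.FPU534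

open Fermat.Agent.LT.H556 Fermat.Agent.LT.H556.A0 Fermat.Agent.LT.T7 Fermat.Agent.LT

variable {F : Type} [Field F] [NumberField F]

/-- A function of the component at `w0` which is a function of the component at `w0'`. -/
theorem bet_split534 (w0 w0' : HeightOneSpectrum (𝓞 F))
    (bet : GL (Fin 2) (w0.adicCompletion F) → ℝ) (g : GL (Fin 2) (w0'.adicCompletion F) → ℝ)
    (H : ∀ y : G F, bet (H305.finGL305 w0 y) = g (H305.finGL305 w0' y))
    (q : ∀ w : HeightOneSpectrum (𝓞 F), GL (Fin 2) (w.adicCompletion F)) :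
    bet (q w0) = g (q w0') := by
  classical
  obtain ⟨y, -, hy⟩ := exists_comp534 ({w0, w0'} : Finset (HeightOneSpectrum (𝓞 F))) q
  rw [← hy w0 (by simp), ← hy w0' (by simp)]
  exact H y

/-- The split integral for `l = 2`. -/
theorem splitInt_two534 {H : Type} [Group H] [TopologicalSpace H] (l : ℕ) (hl : l = 2)
    (hl0 : 0 < l) (μ : @Measure H (borel _)) (β : H → ℝ) (φ : ℕ → H → ℂ) (δ : ℕ → H) :
    H340.splitInt340 l hl0 μ β φ δ =
      (letI : MeasurableSpace H := borel _
       ∫ z : Fin 2 → H,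
        φ 0 ((z 0)⁻¹ * δ 0 * z 1) * φ 1 ((z 1)⁻¹ * δ 1 * z 0) * ((β (z 0) : ℝ) : ℂ)
        ∂(Measure.pi fun _ : Fin 2 => μ)) := by
  subst hl
  letI : MeasurableSpace H := borel _
  unfold H340.splitInt340
  refine integral_congr_ae (Filter.Eventually.of_forall fun z => ?_)
  show (∏ j : Fin 2, φ j.1 ((z j)⁻¹ * δ j.1 * z (H340.cycSucc340 j))) * _ = _
  rw [Fin.prod_univ_two]
  rfl

/-! ## The function `Θ` -/

open Classical in
/-- The extension by `1` of a family on `S'`. -/
def extS534 (S' : Finset (HeightOneSpectrum (𝓞 F)))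
    (x : ∀ w : S', GL (Fin 2) ((w : HeightOneSpectrum (𝓞 F)).adicCompletion F)) :
    ∀ w : HeightOneSpectrum (𝓞 F), GL (Fin 2) (w.adicCompletion F) :=
  fun w => if h : w ∈ S' then x ⟨w, h⟩ else 1

theorem extS_mem534 (S' : Finset (HeightOneSpectrum (𝓞 F)))
    (x : ∀ w : S', GL (Fin 2) ((w : HeightOneSpectrum (𝓞 F)).adicCompletion F))
    (w : HeightOneSpectrum (𝓞 F)) (hw : w ∈ S') : extS534 S' x w = x ⟨w, hw⟩ :=
  dif_pos hw

/-- The factor at `w`. -/
def facA534 (s : T5.AdelicAut F)
    (φ₀ : ∀ w : HeightOneSpectrum (𝓞 F), GL (Fin 2) (w.adicCompletion F) → ℂ)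
    (δ : GL (Fin 2) F) (w : HeightOneSpectrum (𝓞 F))
    (q : ∀ w : HeightOneSpectrum (𝓞 F), GL (Fin 2) (w.adicCompletion F)) : ℂ :=
  φ₀ w ((q w)⁻¹ * H305.locG305 w δ * tw534 s w (q (H1G.preP_H1G s w)))

theorem facA_congr534 (s : T5.AdelicAut F)
    (φ₀ : ∀ w : HeightOneSpectrum (𝓞 F), GL (Fin 2) (w.adicCompletion F) → ℂ)
    (δ : GL (Fin 2) F) (w : HeightOneSpectrum (𝓞 F))
    (q q' : ∀ w : HeightOneSpectrum (𝓞 F), GL (Fin 2) (w.adicCompletion F))
    (h1 : q w = q' w) (h2 : q (H1G.preP_H1G s w) = q' (H1G.preP_H1G s w)) :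
    facA534 s φ₀ δ w q = facA534 s φ₀ δ w q' := by
  unfold facA534
  rw [h1, h2]

/-- The function on the adelic side, as a function of all the finite components. -/
def psi534 (s : T5.AdelicAut F)
    (φ₀ : ∀ w : HeightOneSpectrum (𝓞 F), GL (Fin 2) (w.adicCompletion F) → ℂ)
    (δ : GL (Fin 2) F) (U : H1U.UpDatQ F) (S : Finset (HeightOneSpectrum (𝓞 ℚ)))
    (S' : Finset (HeightOneSpectrum (𝓞 F)))
    (q : ∀ w : HeightOneSpectrum (𝓞 F), GL (Fin 2) (w.adicCompletion F)) : ℂ :=
  (∏ w ∈ S', facA534 s φ₀ δ w q) * (((∏ v ∈ S, U.bet v (q (U.w0 v)) : ℝ)) : ℂ)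

open Classical in
/-- The factor of the block over `v`. -/
def psiV534 (s : T5.AdelicAut F)
    (φ₀ : ∀ w : HeightOneSpectrum (𝓞 F), GL (Fin 2) (w.adicCompletion F) → ℂ)
    (δ : GL (Fin 2) F) (U : H1U.UpDatQ F) (S' : Finset (HeightOneSpectrum (𝓞 F)))
    (v : HeightOneSpectrum (𝓞 ℚ))
    (q : ∀ w : HeightOneSpectrum (𝓞 F), GL (Fin 2) (w.adicCompletion F)) : ℂ :=
  (∏ w ∈ S'.filter (fun w => H1G.underP_H1G (K := ℚ) w = v), facA534 s φ₀ δ w q)
    * ((U.bet v (q (U.w0 v)) : ℝ) : ℂ)

open Classical in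
/-- `Ψ` is the product of the factors of the blocks. -/
theorem psi_eq_prod534 (s : T5.AdelicAut F)
    (φ₀ : ∀ w : HeightOneSpectrum (𝓞 F), GL (Fin 2) (w.adicCompletion F) → ℂ)
    (δ : GL (Fin 2) F) (U : H1U.UpDatQ F) (S : Finset (HeightOneSpectrum (𝓞 ℚ)))
    (S' : Finset (HeightOneSpectrum (𝓞 F)))
    (hunder : ∀ w ∈ S', H1G.underP_H1G (K := ℚ) w ∈ S)
    (q : ∀ w : HeightOneSpectrum (𝓞 F), GL (Fin 2) (w.adicCompletion F)) :
    psi534 s φ₀ δ U S S' q = ∏ v ∈ S, psiV534 s φ₀ δ U S' v q := by
  unfold psi534 psiV534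
  rw [Finset.prod_mul_distrib, Finset.prod_fiberwise_of_maps_to hunder, Complex.ofReal_prod]

theorem psiV_congr534 (s : T5.AdelicAut F)
    (φ₀ : ∀ w : HeightOneSpectrum (𝓞 F), GL (Fin 2) (w.adicCompletion F) → ℂ)
    (δ : GL (Fin 2) F) (U : H1U.UpDatQ F) (S' : Finset (HeightOneSpectrum (𝓞 F)))
    (v : HeightOneSpectrum (𝓞 ℚ))
    (q q' : ∀ w : HeightOneSpectrum (𝓞 F), GL (Fin 2) (w.adicCompletion F))
    (hpre : ∀ w ∈ S', H1G.underP_H1G (K := ℚ) w = v →
      H1G.preP_H1G s w ∈ S' ∧ H1G.underP_H1G (K := ℚ) (H1G.preP_H1G s w) = v)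
    (hw0 : U.w0 v ∈ S' ∧ H1G.underP_H1G (K := ℚ) (U.w0 v) = v)
    (h : ∀ w ∈ S', H1G.underP_H1G (K := ℚ) w = v → q w = q' w) :
    psiV534 s φ₀ δ U S' v q = psiV534 s φ₀ δ U S' v q' := by
  classical
  unfold psiV534
  rw [h (U.w0 v) hw0.1 hw0.2]
  congr 1
  refine Finset.prod_congr rfl fun w hw => ?_
  have hw' := Finset.mem_filter.1 hw
  exact facA_congr534 s φ₀ δ w q q' (h w hw'.1 hw'.2)
    (h _ (hpre w hw'.1 hw'.2).1 (hpre w hw'.1 hw'.2).2)

open Classical in
/-- The extension by `1` of a family on the block over `v`. -/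
def extB534 (S' : Finset (HeightOneSpectrum (𝓞 F))) {ι : Type} (π : S' → ι) (v : ι)
    (bv : ∀ w : {w : S' // π w = v},
      GL (Fin 2) ((w.1 : HeightOneSpectrum (𝓞 F)).adicCompletion F)) :
    ∀ w : HeightOneSpectrum (𝓞 F), GL (Fin 2) (w.adicCompletion F) :=
  fun w => if hw : w ∈ S' then (if hv : π ⟨w, hw⟩ = v then bv ⟨⟨w, hw⟩, hv⟩ else 1) else 1

theorem extB_mem534 (S' : Finset (HeightOneSpectrum (𝓞 F))) {ι : Type} (π : S' → ι) (v : ι)
    (bv : ∀ w : {w : S' // π w = v},
      GL (Fin 2) ((w.1 : HeightOneSpectrum (𝓞 F)).adicCompletion F))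
    (w : HeightOneSpectrum (𝓞 F)) (hw : w ∈ S') (hv : π ⟨w, hw⟩ = v) :
    extB534 S' π v bv w = bv ⟨⟨w, hw⟩, hv⟩ := by
  unfold extB534
  rw [dif_pos hw, dif_pos hv]

theorem glMap_symm534 {k k' : Type} [Field k] [Field k'] (i : k ≃+* k') (x : GL (Fin 2) k') :
    Matrix.GeneralLinearGroup.map (n := Fin 2) (i : k →+* k')
      (Matrix.GeneralLinearGroup.map (n := Fin 2) (i.symm : k' →+* k) x) = x := by
  apply Units.ext
  refine Matrix.ext fun a b => ?_
  simp [Matrix.GeneralLinearGroup.map_apply]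

theorem glMap_symm'534 {k k' : Type} [Field k] [Field k'] (i : k ≃+* k') (x : GL (Fin 2) k) :
    Matrix.GeneralLinearGroup.map (n := Fin 2) (i.symm : k' →+* k)
      (Matrix.GeneralLinearGroup.map (n := Fin 2) (i : k →+* k') x) = x := by
  apply Units.ext
  refine Matrix.ext fun a b => ?_
  simp [Matrix.GeneralLinearGroup.map_apply]

/-- **NODE B.4 `FinPartUpQC`**, VERBATIM. -/
theorem finPartUpQC534 (F : Type) [Field F] [NumberField F] : H1U.FinPartUpQC F := by
  intro hT6 hF D hD hcyc hl μc n m S S' hOver φ₀ Φ hφ δ γ hγ hN L hL U J Jc hU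
  classical
  letI iX : ∀ w : HeightOneSpectrum (𝓞 F),
      MeasurableSpace (GL (Fin 2) (w.adicCompletion F)) := fun _ => borel _
  haveI iXb : ∀ w : HeightOneSpectrum (𝓞 F), BorelSpace (GL (Fin 2) (w.adicCompletion F)) :=
    fun _ => ⟨rfl⟩
  letI iY : ∀ v : HeightOneSpectrum (𝓞 ℚ),
      MeasurableSpace (GL (Fin 2) (v.adicCompletion ℚ)) := fun _ => borel _
  haveI iYb : ∀ v : HeightOneSpectrum (𝓞 ℚ), BorelSpace (GL (Fin 2) (v.adicCompletion ℚ)) :=
    fun _ => ⟨rfl⟩
  haveI iT2 : ∀ w : HeightOneSpectrum (𝓞 F), T2Space (GL (Fin 2) (w.adicCompletion F)) :=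
    fun w => t2_GLv534 w
  haveI iLC : ∀ w : HeightOneSpectrum (𝓞 F),
      LocallyCompactSpace (GL (Fin 2) (w.adicCompletion F)) :=
    fun w => H11.LC.locallyCompactSpace_GL2_adicCompletion_h11 F w
  haveI iSC : ∀ w : HeightOneSpectrum (𝓞 F),
      SecondCountableTopology (GL (Fin 2) (w.adicCompletion F)) :=
    fun w => H159.secondCountable_GLv159 F w
  haveI iT2q : ∀ v : HeightOneSpectrum (𝓞 ℚ), T2Space (GL (Fin 2) (v.adicCompletion ℚ)) :=
    fun v => t2_GLv534 v
  haveI iLCq : ∀ v : HeightOneSpectrum (𝓞 ℚ),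
      LocallyCompactSpace (GL (Fin 2) (v.adicCompletion ℚ)) :=
    fun v => H11.LC.locallyCompactSpace_GL2_adicCompletion_h11 ℚ v
  haveI iSCq : ∀ v : HeightOneSpectrum (𝓞 ℚ),
      SecondCountableTopology (GL (Fin 2) (v.adicCompletion ℚ)) :=
    fun v => H159.secondCountable_GLv159 ℚ v
  -- the normalised Haar measures
  have hloc : ∀ w : HeightOneSpectrum (𝓞 F),
      ∃ μ : @Measure (GL (Fin 2) (w.adicCompletion F)) (borel _), H305.IsLocHaar305 (n w) μ :=
    fun w => (LocMeas729.locMeasC729 (w.adicCompletion F) _ (hT6.2.2.2.2.2.1 F w)).1 (n w)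
  choose μw hμw using hloc
  haveI iH : ∀ w : HeightOneSpectrum (𝓞 F), (μw w).IsHaarMeasure := fun w => (hμw w).1
  haveI iHq : ∀ v : HeightOneSpectrum (𝓞 ℚ), (L.μv v).IsHaarMeasure := fun v => (hL.haar v).1
  -- the places
  have hunder : ∀ w ∈ S', H1G.underP_H1G (K := ℚ) w ∈ S := by
    intro w hw
    obtain ⟨v, hv, hvw⟩ := (hOver w).1 hw
    rw [← under_unique534 hvw]
    exact hv
  have hmemS' : ∀ v ∈ S, ∀ w : HeightOneSpectrum (𝓞 F), PlaceOver ℚ F v w → w ∈ S' :=
    fun v hv w hvw => (hOver w).2 ⟨v, hv, hvw⟩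
  have hover_of : ∀ (v : HeightOneSpectrum (𝓞 ℚ)) (w : HeightOneSpectrum (𝓞 F)),
      H1G.underP_H1G (K := ℚ) w = v → PlaceOver ℚ F v w := by
    intro v w h
    rw [← h]
    exact H1G.placeOver_underP_H1G w
  have hw0over : ∀ v ∈ S, PlaceOver ℚ F v (U.w0 v) := by
    intro v hv
    rcases hU.1 v hv with h | h
    · obtain ⟨e, i, sw, μ', μt', h1, -⟩ := h
      exact h1
    · obtain ⟨hl0, w, i, hw0, -, -, hov, -⟩ := h
      rw [← hw0]
      exact hov 0
  have hpreB : ∀ v ∈ S, ∀ w ∈ S', H1G.underP_H1G (K := ℚ) w = v →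
      H1G.preP_H1G D.s w ∈ S' ∧ H1G.underP_H1G (K := ℚ) (H1G.preP_H1G D.s w) = v := by
    intro v hv w hw hwv
    have h1 : PlaceOver ℚ F v (H1G.preP_H1G D.s w) :=
      H1G.placeOver_preP_H1G hD (hover_of v w hwv)
    exact ⟨hmemS' v hv _ h1, (under_unique534 h1).symm⟩
  have hw0B : ∀ v ∈ S, U.w0 v ∈ S' ∧ H1G.underP_H1G (K := ℚ) (U.w0 v) = v :=
    fun v hv => ⟨hmemS' v hv _ (hw0over v hv), (under_unique534 (hw0over v hv)).symm⟩
  -- continuity of the factors
  have hφc : ∀ w ∈ S', Continuous (φ₀ w) := by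
    intro w hw
    obtain ⟨v, hv, hvw⟩ := (hOver w).1 hw
    exact H16.biInvContC558_16 F w (n w) (φ₀ w) (hφ v hv w hvw).1
  have hext_meas : ∀ w : HeightOneSpectrum (𝓞 F),
      Measurable fun x : (∀ w : S', GL (Fin 2) ((w : HeightOneSpectrum (𝓞 F)).adicCompletion F))
        => extS534 S' x w := by
    intro w
    by_cases hw : w ∈ S'
    · have : (fun x : (∀ w : S', GL (Fin 2) ((w : HeightOneSpectrum (𝓞 F)).adicCompletion F))
          => extS534 S' x w) = fun x => x ⟨w, hw⟩ := by
        funext x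
        exact extS_mem534 S' x w hw
      rw [this]
      exact measurable_pi_apply _
    · have : (fun x : (∀ w : S', GL (Fin 2) ((w : HeightOneSpectrum (𝓞 F)).adicCompletion F))
          => extS534 S' x w) = fun _ => 1 := by
        funext x
        exact dif_neg hw
      rw [this]
      exact measurable_const
  refine ⟨μw, fun x => psi534 D.s φ₀ δ U S S' (extS534 S' x), hμw, ?_, ?_, ?_⟩
  · -- measurability
    show Measurable fun x : (∀ w : S', GL (Fin 2) ((w : HeightOneSpectrum (𝓞 F)).adicCompletion F))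
      => (∏ w ∈ S', facA534 D.s φ₀ δ w (extS534 S' x))
        * (((∏ v ∈ S, U.bet v (extS534 S' x (U.w0 v)) : ℝ)) : ℂ)
    refine Measurable.mul ?_ ?_
    · refine Finset.measurable_prod _ fun w hw => ?_
      unfold facA534
      exact (hφc w hw).measurable.comp ((((hext_meas w).inv).mul measurable_const).mul
        ((continuous_tw534 D.s w).measurable.comp (hext_meas _)))
    · refine Complex.measurable_ofReal.comp ?_
      refine Finset.measurable_prod _ fun v hv => ?_
      rcases hU.1 v hv with h | h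
      · obtain ⟨e, i, sw, μ', μt', h1, h2, h3, h4, h5, h6, h7, h8, h9⟩ := h
        exact h8.1.measurable.comp (hext_meas _)
      · obtain ⟨hl0, w, i, hw0, hlev, hbet, hov, hrel, hne, hi, hval, hJ⟩ := h
        have hb := bet_split534 (U.w0 v) (w 0) (U.bet v)
          (fun p => L.βv v (Matrix.GeneralLinearGroup.map
            (((i 0).symm : (w 0).adicCompletion F ≃+* _) :
              (w 0).adicCompletion F →+* v.adicCompletion ℚ) p)) hbet
        have hfun : (fun x : (∀ w : S',
            GL (Fin 2) ((w : HeightOneSpectrum (𝓞 F)).adicCompletion F)) =>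
            U.bet v (extS534 S' x (U.w0 v)))
            = fun x => L.βv v (Matrix.GeneralLinearGroup.map
              (((i 0).symm : (w 0).adicCompletion F ≃+* _) :
                (w 0).adicCompletion F →+* v.adicCompletion ℚ) (extS534 S' x (w 0))) :=
          funext fun x => hb _
        rw [hfun]
        have hc : Continuous (Matrix.GeneralLinearGroup.map (n := Fin 2)
            (((i 0).symm : (w 0).adicCompletion F ≃+* v.adicCompletion ℚ) :
              (w 0).adicCompletion F →+* v.adicCompletion ℚ)) :=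
          continuous_glMap534 (k := (w 0).adicCompletion F) (k' := v.adicCompletion ℚ)
            (((i 0).symm : (w 0).adicCompletion F ≃+* v.adicCompletion ℚ) :
              (w 0).adicCompletion F →+* v.adicCompletion ℚ)
            (fun y => val_symm534 (i 0) (hval 0) y)
        have hβ : Continuous (L.βv v) := (hL.cut v).1
        exact (hβ.comp hc).measurable.comp (hext_meas (w 0))
  · -- the pull-back
    intro y hy
    unfold psi534
    congr 1
    · refine Finset.prod_congr rfl fun w hw => ?_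
      unfold facA534
      rw [finGL_tw534, extS_mem534 S' _ w hw]
      obtain ⟨v, hv, hvw⟩ := (hOver w).1 hw
      rw [extS_mem534 S' _ _ (hpreB v hv w hw (under_unique534 hvw).symm).1]
    · congr 1
      refine Finset.prod_congr rfl fun v hv => ?_
      rw [extS_mem534 S' _ _ (hw0B v hv).1]
  · -- the integral
    set π : S' → S := fun w => ⟨H1G.underP_H1G (K := ℚ) w.1, hunder w.1 w.2⟩ with hπ
    have hπv : ∀ (w : HeightOneSpectrum (𝓞 F)) (hw : w ∈ S') (v : S),
        π ⟨w, hw⟩ = v ↔ H1G.underP_H1G (K := ℚ) w = v.1 := by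
      intro w hw v
      constructor
      · intro h
        exact congrArg Subtype.val h
      · intro h
        exact Subtype.ext h
    set Fv : ∀ v : S, (∀ w : {w : S' // π w = v},
        GL (Fin 2) ((w.1 : HeightOneSpectrum (𝓞 F)).adicCompletion F)) → ℂ :=
      fun v bv => psiV534 D.s φ₀ δ U S' v.1 (extB534 S' π v bv) with hFv
    have hreg : ∀ x : (∀ w : S', GL (Fin 2) ((w : HeightOneSpectrum (𝓞 F)).adicCompletion F)),
        psi534 D.s φ₀ δ U S S' (extS534 S' x) = ∏ v : S, Fv v (fun w => x w.1) := by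
      intro x
      rw [psi_eq_prod534 D.s φ₀ δ U S S' hunder,
        ← Finset.prod_coe_sort S (fun v => psiV534 D.s φ₀ δ U S' v (extS534 S' x))]
      refine Finset.prod_congr rfl fun v _ => ?_
      refine psiV_congr534 D.s φ₀ δ U S' v.1 _ _ (hpreB v.1 v.2) (hw0B v.1 v.2) ?_
      intro w hw hwv
      rw [extS_mem534 S' x w hw, extB_mem534 S' π v _ w hw ((hπv w hw v).2 hwv)]
    haveI iSF : ∀ w : S', SigmaFinite (μw w.1) := fun w => inferInstance
    have hblock : ∀ v : S,
        ∫ y, Fv v y ∂(Measure.pi fun w : {w : S' // π w = v} => μw w.1.1) = J v.1 := by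
      intro v
      rcases hU.1 v.1 v.2 with h | h
      · -- ONE place over `v`
        obtain ⟨e, i, sw, μ', μt', hov, huniq, hi, hsw, hext, hμ', htor, hcut, hJ⟩ := h
        have hw₀S' : U.w0 v.1 ∈ S' := (hw0B v.1 v.2).1
        have hw₀π : π ⟨U.w0 v.1, hw₀S'⟩ = v := (hπv _ hw₀S' v).2 (hw0B v.1 v.2).2
        letI iU : Unique {w : S' // π w = v} :=
          { default := ⟨⟨U.w0 v.1, hw₀S'⟩, hw₀π⟩
            uniq := fun w' => by
              apply Subtype.ext
              apply Subtype.ext
              exact huniq w'.1.1 (hover_of v.1 w'.1.1 ((hπv _ w'.1.2 v).1 w'.2)) }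
        have hpre : H1G.preP_H1G D.s (U.w0 v.1) = U.w0 v.1 :=
          huniq _ (H1G.placeOver_preP_H1G hD hov)
        have hfil : S'.filter (fun w => H1G.underP_H1G (K := ℚ) w = v.1) = {U.w0 v.1} := by
          ext w
          rw [Finset.mem_filter, Finset.mem_singleton]
          constructor
          · rintro ⟨-, hw⟩
            exact huniq w (hover_of v.1 w hw)
          · rintro rfl
            exact hw0B v.1 v.2
        have hμeq : μw (U.w0 v.1) = μ' :=
          isLocHaar_unique534 (U.w0 v.1) (n (U.w0 v.1)) _ _ (hμw _) hμ'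
        rw [H159.integral_block_one159
          (fun w : {w : S' // π w = v} => μw w.1.1) (Fv v), hJ]
        unfold H340.locTwInt340
        show ∫ z, Fv v ((MeasurableEquiv.piUnique _).symm z) ∂(μw (U.w0 v.1)) = _
        rw [hμeq]
        refine integral_congr_ae (Filter.Eventually.of_forall fun z => ?_)
        show psiV534 D.s φ₀ δ U S' v.1 (extB534 S' π v ((MeasurableEquiv.piUnique _).symm z)) = _
        have hq : extB534 S' π v ((MeasurableEquiv.piUnique
            (fun w : {w : S' // π w = v} =>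
              GL (Fin 2) ((w.1 : HeightOneSpectrum (𝓞 F)).adicCompletion F))).symm z)
            (U.w0 v.1) = z := by
          rw [extB_mem534 S' π v _ _ hw₀S' hw₀π]
          rfl
        unfold psiV534
        rw [hfil, Finset.prod_singleton]
        unfold facA534
        rw [tw_eq_of_eq534 D.s (U.w0 v.1) hpre sw hsw hext.val_s, hq]
      · -- TWO places over `v`
        obtain ⟨hl0, w, i, hw0, hlev, hbet, hov, hrel, hne, hi, hval, hJ⟩ := h
        have h10 : w 1 ≠ w 0 := hne 1 one_pos (by rw [hl]; norm_num)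
        have hw2 : w (1 + 1) = w 0 := by
          rcases places_two534 hcyc hl v.1 (w 0) (w 1) (w (1 + 1)) (hov 0) (hov 1) (hov _) h10
            with h | h
          · exact h
          · exfalso
            have r1 : T5.PlaceRel D.s (w (1 + 1)) (w 1) := hrel 1
            have r0 : T5.PlaceRel D.s (w 1) (w 0) := hrel 0
            rw [h] at r1
            exact h10 (HeightOneSpectrum.ext (r1.trans r0.symm))
        have hpre0 : H1G.preP_H1G D.s (w 0) = w 1 :=
          FUQ514.placeRel_inj514 D.s (H1G.placeRel_preP_H1G D.s (w 0)) (hrel 0)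
        have hpre1 : H1G.preP_H1G D.s (w 1) = w 0 := by
          have r1 : T5.PlaceRel D.s (w (1 + 1)) (w 1) := hrel 1
          rw [hw2] at r1
          exact FUQ514.placeRel_inj514 D.s (H1G.placeRel_preP_H1G D.s (w 1)) r1
        have hwS' : ∀ j, w j ∈ S' := fun j => hmemS' v.1 v.2 _ (hov j)
        have hwπ : ∀ j, π ⟨w j, hwS' j⟩ = v :=
          fun j => (hπv _ (hwS' j) v).2 (under_unique534 (hov j)).symm
        have hfil : S'.filter (fun w' => H1G.underP_H1G (K := ℚ) w' = v.1) = {w 0, w 1} := by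
          ext w'
          rw [Finset.mem_filter, Finset.mem_insert, Finset.mem_singleton]
          constructor
          · rintro ⟨-, hw'⟩
            exact places_two534 hcyc hl v.1 (w 0) (w 1) w' (hov 0) (hov 1)
              (hover_of v.1 w' hw') h10
          · rintro (rfl | rfl)
            · exact ⟨hwS' 0, (under_unique534 (hov 0)).symm⟩
            · exact ⟨hwS' 1, (under_unique534 (hov 1)).symm⟩
        -- the enumeration of the block
        let f : Fin 2 → {w' : S' // π w' = v} := fun j => ⟨⟨w j.1, hwS' j.1⟩, hwπ j.1⟩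
        have hfinj : Function.Injective f := by
          intro a b hab
          have hab' : w a.1 = w b.1 :=
            congrArg (fun t : {w' : S' // π w' = v} => (t.1.1 : HeightOneSpectrum (𝓞 F))) hab
          fin_cases a <;> fin_cases b
          · rfl
          · exact absurd hab'.symm h10
          · exact absurd hab' h10
          · rfl
        have hfsurj : Function.Surjective f := by
          intro w'
          rcases places_two534 hcyc hl v.1 (w 0) (w 1) w'.1.1 (hov 0) (hov 1)
            (hover_of v.1 w'.1.1 ((hπv _ w'.1.2 v).1 w'.2)) h10 with h | h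
          · exact ⟨0, Subtype.ext (Subtype.ext h.symm)⟩
          · exact ⟨1, Subtype.ext (Subtype.ext h.symm)⟩
        let e : Fin 2 ≃ {w' : S' // π w' = v} := Equiv.ofBijective f ⟨hfinj, hfsurj⟩
        -- the identifications
        let a : ∀ j : Fin 2, GL (Fin 2) ((w j.1).adicCompletion F)
            ≃ᵐ GL (Fin 2) (v.1.adicCompletion ℚ) :=
          fun j => (glHomeo534 (i j.1) (hval j.1)).symm.toMeasurableEquiv
        have hmp : ∀ j : Fin 2, MeasurePreserving (a j) (μw (w j.1)) (L.μv v.1) := by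
          intro j
          have h1 : μw (w j.1) = Measure.map (Matrix.GeneralLinearGroup.map (n := Fin 2)
              ((i j.1 : v.1.adicCompletion ℚ ≃+* (w j.1).adicCompletion F) :
                v.1.adicCompletion ℚ →+* (w j.1).adicCompletion F)) (L.μv v.1) := by
            refine isLocHaar_unique534 (w j.1) (n (w j.1)) _ _ (hμw _) ?_
            rw [hlev j.1]
            exact isLocHaar_map534 (i j.1) (hval j.1) (m v.1) (L.μv v.1) (hL.haar v.1)
          refine ⟨(a j).measurable, ?_⟩
          have hcm : Measurable (Matrix.GeneralLinearGroup.map (n := Fin 2)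
              ((i j.1 : v.1.adicCompletion ℚ ≃+* (w j.1).adicCompletion F) :
                v.1.adicCompletion ℚ →+* (w j.1).adicCompletion F)) :=
            (continuous_glMap534 (k := v.1.adicCompletion ℚ) (k' := (w j.1).adicCompletion F)
              ((i j.1 : v.1.adicCompletion ℚ ≃+* (w j.1).adicCompletion F) :
                v.1.adicCompletion ℚ →+* (w j.1).adicCompletion F)
              (fun x => hval j.1 x)).measurable
          rw [h1, Measure.map_map (a j).measurable hcm]
          have hid : (a j) ∘ (Matrix.GeneralLinearGroup.map (n := Fin 2)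
              ((i j.1 : v.1.adicCompletion ℚ ≃+* (w j.1).adicCompletion F) :
                v.1.adicCompletion ℚ →+* (w j.1).adicCompletion F)) = id :=
            funext fun x => glMap_symm'534 (i j.1) x
          rw [hid, Measure.map_id]
        rw [H159.integral_block_fin159 (fun w' : {w' : S' // π w' = v} => μw w'.1.1)
          (L.μv v.1) e a hmp (Fv v), hJ, splitInt_two534 D.l hl hl0]
        refine integral_congr_ae (Filter.Eventually.of_forall fun z => ?_)
        show psiV534 D.s φ₀ δ U S' v.1 (extB534 S' π v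
          (MeasurableEquiv.piCongrLeft (fun w' : {w' : S' // π w' = v} =>
              GL (Fin 2) ((w'.1 : HeightOneSpectrum (𝓞 F)).adicCompletion F)) e
            (fun j => (a j).symm (z j))))
          = φ₀ (w 0) (Matrix.GeneralLinearGroup.map
                ((i 0 : v.1.adicCompletion ℚ ≃+* _) :
                  v.1.adicCompletion ℚ →+* (w 0).adicCompletion F)
                ((z 0)⁻¹ * Matrix.GeneralLinearGroup.map
                  (((i 0).symm : (w 0).adicCompletion F ≃+* _) :
                    (w 0).adicCompletion F →+* v.1.adicCompletion ℚ) (H305.locG305 (w 0) δ)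
                  * z 1))
            * φ₀ (w 1) (Matrix.GeneralLinearGroup.map
                ((i 1 : v.1.adicCompletion ℚ ≃+* _) :
                  v.1.adicCompletion ℚ →+* (w 1).adicCompletion F)
                ((z 1)⁻¹ * Matrix.GeneralLinearGroup.map
                  (((i 1).symm : (w 1).adicCompletion F ≃+* _) :
                    (w 1).adicCompletion F →+* v.1.adicCompletion ℚ) (H305.locG305 (w 1) δ)
                  * z 0))
            * ((L.βv v.1 (z 0) : ℝ) : ℂ)
        generalize hq : extB534 S' π v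
          (MeasurableEquiv.piCongrLeft (fun w' : {w' : S' // π w' = v} =>
              GL (Fin 2) ((w'.1 : HeightOneSpectrum (𝓞 F)).adicCompletion F)) e
            (fun j => (a j).symm (z j))) = q
        have hq0 : q (w 0) = Matrix.GeneralLinearGroup.map (n := Fin 2)
            ((i 0 : v.1.adicCompletion ℚ ≃+* _) :
              v.1.adicCompletion ℚ →+* (w 0).adicCompletion F) (z 0) := by
          rw [← hq, extB_mem534 S' π v _ _ (hwS' 0) (hwπ 0)]
          exact Equiv.piCongrLeft_apply_apply
            (P := fun w' : {w' : S' // π w' = v} =>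
              GL (Fin 2) ((w'.1 : HeightOneSpectrum (𝓞 F)).adicCompletion F))
            e (fun j => (a j).symm (z j)) 0
        have hq1 : q (w 1) = Matrix.GeneralLinearGroup.map (n := Fin 2)
            ((i 1 : v.1.adicCompletion ℚ ≃+* _) :
              v.1.adicCompletion ℚ →+* (w 1).adicCompletion F) (z 1) := by
          rw [← hq, extB_mem534 S' π v _ _ (hwS' 1) (hwπ 1)]
          exact Equiv.piCongrLeft_apply_apply
            (P := fun w' : {w' : S' // π w' = v} =>
              GL (Fin 2) ((w'.1 : HeightOneSpectrum (𝓞 F)).adicCompletion F))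
            e (fun j => (a j).symm (z j)) 1
        unfold psiV534
        rw [hfil, Finset.prod_pair h10.symm]
        unfold facA534
        rw [tw_eq_of_iso534 D.s v.1 (w 0) (w 1) hpre0 (i 0) (i 1) (hi 0) (hi 1) (hval 0)
            (hval 1) q,
          tw_eq_of_iso534 D.s v.1 (w 1) (w 0) hpre1 (i 1) (i 0) (hi 1) (hi 0) (hval 1)
            (hval 0) q,
          bet_split534 (U.w0 v.1) (w 0) (U.bet v.1)
            (fun p => L.βv v.1 (Matrix.GeneralLinearGroup.map
              (((i 0).symm : (w 0).adicCompletion F ≃+* _) :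
                (w 0).adicCompletion F →+* v.1.adicCompletion ℚ) p)) hbet q,
          hq0, hq1]
        simp only [map_mul, map_inv, glMap_symm534, glMap_symm'534]
    have h1 : ∫ p, psi534 D.s φ₀ δ U S S' (extS534 S' p) ∂(Measure.pi fun w : S' => μw w.1)
        = ∫ p, ∏ v : S, Fv v (fun w => p w.1) ∂(Measure.pi fun w : S' => μw w.1) :=
      integral_congr_ae (Filter.Eventually.of_forall fun x => hreg x)
    rw [h1, H159.integral_block159 π (fun w : S' => μw w.1) Fv,
      Finset.prod_congr rfl (fun v _ => hblock v)]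
    exact Finset.prod_coe_sort S J

end Fermat.Agent.LT.T7.FPU534
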