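import Mathlib
import Fermat.Agent.LT.T7.H534.WBasisSpec
import Fermat.Agent.LT.T7.H863.WSub
import Fermat.Agent.LT.H129.Comp

/-!
# Row LT, tower T7, LEAF T7.L2.3.5.4.1 `SD534.V2SubC` (helper534, registry row 2354)

OFF-MAIN.  PROVED: `v2SubC534 (K) : SD534.V2SubC K`, UNCONDITIONAL, on the lemmas of helper863
(`LT/T7/H863/WSub.lean`, byte-identical copy) and of helper129 (`LT/H129/Comp.lean`).
No hole, nothing assumed.  ADDITIVE.
-/

set_option autoImplicit false
set_option linter.unusedSectionVars false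
set_option linter.unusedVariables false

open AutomorphicForm IsDedekindDomain NumberField MeasureTheory
open scoped ComplexConjugate

noncomputable section

namespace Fermat.Agent.LT.T7.SD534

open Fermat.Agent.LT.H556 Fermat.Agent.LT.H556.A0 Fermat.Agent.LT.T7

attribute [local instance] Fermat.Agent.LT.T5.instMeasurableSpaceG

variable {K : Type} [Field K] [NumberField K]

/-- An element which is trivial at every place is `1`. -/
theorem eq_one_of_triv534 {h : G K} (hI : ∀ w : InfinitePlace K, TrivAtInf w h)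
    (hF : ∀ v : HeightOneSpectrum (𝓞 K), TrivAtFin v h) : h = 1 := by
  refine Fermat.Agent.LT.H129.G_ext129 (fun w => ?_) (fun v => ?_)
  · rw [map_one]
    exact (Fermat.Agent.LT.H129.trivAtInf_iff129 w h).1 (hI w)
  · rw [map_one]
    exact (Fermat.Agent.LT.H129.trivAtFin_iff129 v h).1 (hF v)

/-- The Iwahori condition for the empty orbit is void. -/
theorem isIwInv_zero534 (o : ℕ → HeightOneSpectrum (𝓞 K)) (ψ : G K → ℂ) : IsIwInv 0 o ψ := by
  intro h hI hF _ x
  have h1 : h = 1 :=
    eq_one_of_triv534 hI (fun v => hF v (fun j hj => absurd hj (Nat.not_lt_zero j)))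
  rw [h1, mul_one]

/-- **T7.L2.3.5.4.1** (`SD534.V2SubC`): `V₂` and its eigen-classes are linear subspaces and
`W ⊆ V₂`. -/
theorem v2SubC534 (K : Type) [Field K] [NumberField K] : V2SubC K := fun 𝔫 r u =>
  { zero2 := Fermat.Agent.LT.T7.H863.isWFn_zero_863 𝔫 r 0 (fun _ => u)
    add2 := fun _ _ h h' => Fermat.Agent.LT.T7.H863.isWFn_add_863 h h'
    smul2 := fun a _ h => Fermat.Agent.LT.T7.H863.isWFn_smul_863 a h
    addC2 := fun _ _ _ h h' => Fermat.Agent.LT.T7.H863.isEigFn_add_863 h h'
    smulC2 := fun _ a _ h => Fermat.Agent.LT.T7.H863.isEigFn_smul_863 a h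
    w_le := fun χ h => ⟨h.cusp, h.arch_scalar, isIwInv_zero534 _ χ⟩ }

end Fermat.Agent.LT.T7.SD534

end
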