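import Mathlib
import Fermat.Agent.LT.T7.H534.WBasisSpec
import Fermat.Agent.LT.T7.H534.DownBasisTop

/-!
# Row LT, tower T7, NODE T7.L2.3.5.4 `SD534.WBasisC` -- THE ASSEMBLY (helper534)

OFF-MAIN.  PROVED: `wBasisC_of534 : CuspFormC K → WSubC K → V2SubC K → V2BasisC K → IwProjC K →
ProjBasisC → WBasisC K`.  No hole, nothing assumed.  ADDITIVE.
-/

set_option autoImplicit false
set_option linter.unusedSectionVars false
set_option linter.unusedVariables false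

open AutomorphicForm IsDedekindDomain NumberField MeasureTheory
open scoped ComplexConjugate

noncomputable section

namespace Fermat.Agent.LT.T7.SD534

open Fermat.Agent.LT.H556 Fermat.Agent.LT.H556.A0 Fermat.Agent.LT.T7

attribute [local instance] Fermat.Agent.LT.T5.instMeasurableSpaceG

section Top

variable {K : Type} [Field K] [NumberField K]

/-- `V₂` as a submodule of the functions. -/
def v2Sub534 {𝔫 : Ideal (𝓞 K)} {r : G K} {u : HeightOneSpectrum (𝓞 K)} (h : IsV2Sub 𝔫 r u) :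
    Submodule ℂ (G K → ℂ) where
  carrier := {ψ | InV2 𝔫 r u ψ}
  zero_mem' := h.zero2
  add_mem' := fun {a b} ha hb => h.add2 a b ha hb
  smul_mem' := fun a f hf => h.smul2 a f hf

theorem InV2.inV {𝔫 : Ideal (𝓞 K)} {r : G K} {u : HeightOneSpectrum (𝓞 K)}
    {ψ : G K → ℂ} (h : InV2 𝔫 r u ψ) : InV 𝔫 r ψ := h.cusp

theorem InCls2.inV2 {𝔫 : Ideal (𝓞 K)} {r : G K} {u : HeightOneSpectrum (𝓞 K)} {c : EigData K}
    {ψ : G K → ℂ} (h : InCls2 𝔫 r u c ψ) : InV2 𝔫 r u ψ := h.inv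

/-- A member of `W` which is an eigenfunction in `V₂` is an eigenfunction in `W`. -/
theorem inCls_of_inCls2_534 {𝔫 : Ideal (𝓞 K)} {r : G K} {u : HeightOneSpectrum (𝓞 K)}
    {c : EigData K} {ψ : G K → ℂ} (h : InCls2 𝔫 r u c ψ) (hW : InW 𝔫 r u ψ) :
    InCls 𝔫 r u c ψ :=
  ⟨hW, h.hecke, h.mean⟩

/-- An eigenfunction in `W` is an eigenfunction in `V₂`. -/
theorem inCls2_of_inCls534 {𝔫 : Ideal (𝓞 K)} {r : G K} {u : HeightOneSpectrum (𝓞 K)}
    (h2 : IsV2Sub 𝔫 r u) {c : EigData K} {ψ : G K → ℂ} (h : InCls 𝔫 r u c ψ) :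
    InCls2 𝔫 r u c ψ :=
  ⟨h2.w_le ψ h.inv, h.hecke, h.mean⟩

/-- The members of a class span of `V₂` are eigenfunctions with the data of the class. -/
theorem inCls2_of_mem534 {𝔫 : Ideal (𝓞 K)} {r : G K} {u : HeightOneSpectrum (𝓞 K)}
    (h2 : IsV2Sub 𝔫 r u) (v : ℕ → G K → ℂ) (J : Set ℕ) (c : ℕ → EigData K)
    (heig : ∀ j, j ∈ J → InCls2 𝔫 r u (c j) (v j)) (j₀ : ℕ) (hj₀ : j₀ ∈ J)
    (x : G K → ℂ) (hx : x ∈ clsSpan v J c (c j₀)) : InCls2 𝔫 r u (c j₀) x := by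
  unfold clsSpan at hx
  induction hx using Submodule.span_induction with
  | mem f hf =>
    obtain ⟨j, hj, hc, rfl⟩ := hf
    rw [← hc]
    exact heig j hj
  | zero =>
    have h := h2.smulC2 (c j₀) 0 (v j₀) (heig j₀ hj₀)
    rwa [zero_smul] at h
  | add f f' _ _ hf hf' => exact h2.addC2 (c j₀) f f' hf hf'
  | smul a f _ hf => exact h2.smulC2 (c j₀) a f hf

/-- **THE ASSEMBLY of the node W-BASIS.** -/
theorem wBasisC_of534 (hForm : CuspFormC K) (hSub : WSubC K) (hV2 : V2SubC K)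
    (hV2B : V2BasisC K) (hIw : IwProjC K) (hPB : ProjBasisC) : WBasisC K := by
  classical
  intro μ F r 𝔫 u hlev hfr hray hu hcx
  have hF := hForm μ F r 𝔫 hlev hfr hray
  have hS := hSub 𝔫 r u
  have h2 := hV2 𝔫 r u
  obtain ⟨v, J₀, c₀, hv⟩ := hV2B μ F r 𝔫 u hlev hfr hray hcx
  obtain ⟨P, hP⟩ := hIw μ F r 𝔫 u hlev hfr hray hu
  have hP0 : P 0 = 0 := by
    have h := hP.smul 0 0
    rwa [zero_smul, zero_smul] at h
  have hPcls : ∀ a : EigData K, ∀ x ∈ clsSpan v J₀ c₀ a, P x ∈ clsSpan v J₀ c₀ a := by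
    intro a x hx
    by_cases hne : ∃ j, j ∈ J₀ ∧ c₀ j = a
    · obtain ⟨j₀, hj₀, rfl⟩ := hne
      have hxc := inCls2_of_mem534 h2 v J₀ c₀ hv.eig j₀ hj₀ x hx
      exact hv.exhaust j₀ hj₀ _ (inCls2_of_inCls534 h2 (hP.cls _ x hxc))
    · rw [clsSpan_eq_bot534 v J₀ c₀ a hne] at hx ⊢
      rw [Submodule.mem_bot] at hx
      subst hx
      rw [Submodule.mem_bot]
      exact hP0
  have hWV : wSub534 hS ≤ v2Sub534 h2 := fun χ hχ => h2.w_le χ hχ
  obtain ⟨w, J, cl, hw, hcl, hnorm, horth, hpars, hfin, hexh⟩ :=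
    hPB (G K → ℂ) (T5.innerD μ F) (v2Sub534 h2) (wSub534 hS) (EigData K) v J₀ c₀ P hWV
      (fun x hx y hy z hz => hF.add_left x y z (InV2.inV hx) (InV2.inV hy) (InV2.inV hz))
      (fun a x hx y hy => hF.smul_left a x y (InV2.inV hx) (InV2.inV hy))
      (fun x hx y hy => hF.conj_symm x y (InV2.inV hx) (InV2.inV hy))
      (fun x hx => hF.nonneg x (InV2.inV hx))
      (fun x hx => hF.definite x (InV2.inV hx))
      (fun j hj => (hv.eig j hj).inV2)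
      hv.norm_one hv.orth
      (fun ψ hψ => hv.parseval ψ hψ)
      hv.finite hP.add hP.smul
      (fun x hx => hP.mem x hx)
      (fun x hx χ hχ => hP.inner x hx χ hχ)
      hPcls
  have heig : ∀ j, j ∈ J → InCls 𝔫 r u (cl j) (w j) := by
    intro j hj
    obtain ⟨j₀, hj₀, hc⟩ := hcl j hj
    have h1 := (hw j hj).2
    rw [← hc] at h1 ⊢
    exact inCls_of_inCls2_534 (inCls2_of_mem534 h2 v J₀ c₀ hv.eig j₀ hj₀ _ h1) (hw j hj).1
  refine ⟨w, J, cl, ⟨heig, ?_, hnorm, horth, fun χ hχ => hpars χ hχ, hfin, ?_⟩⟩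
  · intro j hj
    obtain ⟨j₀, hj₀, hc⟩ := hcl j hj
    rw [← hc]
    exact hv.unit j₀ hj₀
  · intro j₁ hj₁ ψ hψ
    obtain ⟨j₀, hj₀, hc⟩ := hcl j₁ hj₁
    have h1 : InCls2 𝔫 r u (c₀ j₀) ψ := by
      rw [hc]
      exact inCls2_of_inCls534 h2 hψ
    have h3 := hv.exhaust j₀ hj₀ ψ h1
    rw [hc] at h3
    exact hexh (cl j₁) ψ hψ.inW h3

/-- **THE NODE T7.L2.3 FROM ITS FIFTEEN LEAVES** (level 3 of `WBasisC` unfolded). -/
theorem specDownC_of_leaves3_534 {K K' : Type} [Field K] [NumberField K] [Field K']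
    [NumberField K'] [Algebra K K'] (hStf : StfIdC K) (hIw : IwSysC K) (hBC : BCDataC K K')
    (hRD : ResDegC K K') (hBU : BCUnitC K K') (hForm : CuspFormC K) (hSub : WSubC K)
    (hOps : OpsClassC K) (hSchur : SchurSeqC) (hReg : RegParamFnC K) (hSeq : SubSeqC K)
    (hV2 : V2SubC K) (hV2B : V2BasisC K) (hProj : IwProjC K) (hPB : ProjBasisC) :
    SpecDownC K K' :=
  specDownC_of_leaves534 hStf hIw hBC hRD hBU hForm hSub hOps
    (wBasisC_of534 hForm hSub hV2 hV2B hProj hPB) hSchur hReg hSeq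

end Top

end Fermat.Agent.LT.T7.SD534

end
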