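import Mathlib
import Fermat.Agent.LT.T7.H534.WBasisTop
import Fermat.Agent.LT.T7.H534.V2Sub
import Fermat.Agent.LT.T7.H510.IwSys
import Fermat.Agent.LT.T7.H966.BCData
import Fermat.Agent.LT.T7.H936.BCUnit
import Fermat.Agent.LT.T7.H269.ResDeg
import Fermat.Agent.LT.T7.H296.StfId
import Fermat.Agent.LT.T7.H76.CuspForm
import Fermat.Agent.LT.T7.H863.WSub
import Fermat.Agent.LT.T7.H468.OpsClass
import Fermat.Agent.LT.T7.H228.SchurSeqTop
import Fermat.Agent.LT.T7.H16.RegParamLeaves
import Fermat.Agent.LT.T7.H190.SubSeqClosed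
import Fermat.Agent.LT.T7.H582.ProjBasis

/-!
# Row LT, tower T7, NODE T7.L2.3 `SpecDownC` -- INTEGRATION of the delivered leaves (helper534)

OFF-MAIN.  The thirteen delivered leaves (registry rows 2122-2126, 2179-2181, 2183-2185, 2354,
2357; the files of their owners are vendored byte-identical) are plugged in the proved
assemblies `specDownC_of_leaves534`, `specDownC_of_leaves3_534`.  What is left: the node
`WBasisC` (row 2182), i.e. the two open leaves `V2BasisC` (2355), `IwProjC` (2356) of the cut of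
helper534, or the cut of helper776.
No hole, nothing assumed.  ADDITIVE.
-/

set_option autoImplicit false

open AutomorphicForm IsDedekindDomain NumberField MeasureTheory

noncomputable section

namespace Fermat.Agent.LT.T7.SD534

/-- **`SpecDownC` FROM THE NODE `WBasisC`.** -/
theorem specDownC_of_wBasis534 (K K' : Type) [Field K] [NumberField K] [Field K']
    [NumberField K'] [Algebra K K'] (hWB : WBasisC K) : Fermat.Agent.LT.T7.SpecDownC K K' :=
  specDownC_of_leaves534 (Fermat.Agent.LT.T7.H296.stfIdC296 K)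
    (Fermat.Agent.LT.T7.H510.iwSysC_h510 K) (Fermat.Agent.LT.T7.H966.bcDataC966 K K')
    (Fermat.Agent.LT.T7.H269.resDegC269 K K') (Fermat.Agent.LT.T7.H936.bcUnitC936 K K')
    (Fermat.Agent.LT.T7.H76.cuspFormC76 K) (Fermat.Agent.LT.T7.H863.wSubC_863 K)
    (Fermat.Agent.LT.T7.H468.opsClassC468 K) hWB
    Fermat.Agent.LT.T7.H228.schurSeqC228 (Fermat.Agent.LT.T7.H16.regParamFnC16 K)
    (Fermat.Agent.LT.T7.H190.subSeqC190 K)

/-- **`WBasisC` FROM ITS TWO OPEN LEAVES.** -/
theorem wBasisC_of_open534 (K : Type) [Field K] [NumberField K]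
    (hV2B : V2BasisC K) (hProj : IwProjC K) : WBasisC K :=
  wBasisC_of534 (Fermat.Agent.LT.T7.H76.cuspFormC76 K) (Fermat.Agent.LT.T7.H863.wSubC_863 K)
    (v2SubC534 K) hV2B hProj Fermat.Agent.LT.T7.H582.projBasisC582

/-- **`SpecDownC` FROM THE TWO OPEN LEAVES.** -/
theorem specDownC_of_open534 (K K' : Type) [Field K] [NumberField K] [Field K']
    [NumberField K'] [Algebra K K'] (hV2B : V2BasisC K) (hProj : IwProjC K) :
    Fermat.Agent.LT.T7.SpecDownC K K' :=
  specDownC_of_wBasis534 K K' (wBasisC_of_open534 K hV2B hProj)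

end Fermat.Agent.LT.T7.SD534

end
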