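import Mathlib
import Fermat.Agent.LT.T7.H534.SpecDownPart
import Fermat.Agent.LT.T1.Closed
import Fermat.Agent.LT.T7.H776.WBasisSpec
import Fermat.Agent.LT.T7.H613.V2Basis
import Fermat.Agent.LT.T7.H389.WAsm
import Fermat.Agent.LT.T7.H75.IwAvgAsm
import Fermat.Agent.LT.T7.H860.ProjSeq
import Fermat.Agent.LT.T7.H385.FinAvgPos
import Fermat.Agent.LT.T7.H899.FinAvgHecke
import Fermat.Agent.LT.T7.H984.FinAvgMean
import Fermat.Agent.LT.T7.H453.TranslInv
import Fermat.Agent.LT.T7.H543.HGroup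
import Fermat.Agent.LT.T7.H981.FinIndex
import Fermat.Agent.LT.T7.H454.FinDataAsm
import Fermat.Agent.LT.T7.H547.FinAvgCusp
import Fermat.Agent.LT.T7.H387.FinAvgOrth

/-!
# Row LT, tower T7, NODE T7.L2.3 `SpecDownC` -- CLOSED (helper534, registry row 1892)

OFF-MAIN.  `specDownC_closed534 (K K') : T7.SpecDownC K K'`, UNCONDITIONAL, VERBATIM against
`LT/T7/Level2.lean` (helper797, sha256 15516646).  No hole, nothing assumed.  ADDITIVE.

The node `WBasisC` (row 2182) is closed by mixing the two cuts: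
* `V2BasisC` (cut of helper534, row 2355, proved by helper613) IS `WB776.W0BasisC776` (same
  fields);
* the projector `WB776.IwAvgC776`: assembly of helper75 on the closed leaves of the cut of
  helper193 (helper453, 543, 981, 454, 547, 387) and of helper776 (helper385, 899, 984);
* the assembly `WB776.WAsmC776` of helper389 with `ProjSeqC776` of helper860.
All the files of the owners are byte-identical copies.
-/

set_option autoImplicit false

open AutomorphicForm IsDedekindDomain NumberField MeasureTheory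

noncomputable section

namespace Fermat.Agent.LT.T7.SD534

/-- The basis of `V₂` of the cut of helper534 is the basis of level `0` of the cut of
helper776. -/
theorem w0BasisC_of_v2Basis534 (K : Type) [Field K] [NumberField K] (h : V2BasisC K) :
    Fermat.Agent.LT.T7.WB776.W0BasisC776 K := by
  intro μ F r 𝔫 u h𝔫 hfr hray hcx
  obtain ⟨v, J, c, hv⟩ := h μ F r 𝔫 u h𝔫 hfr hray hcx
  exact ⟨v, J, c, ⟨hv.eig, hv.unit, hv.norm_one, hv.orth, hv.parseval, hv.finite, hv.exhaust⟩⟩

/-- **THE PROJECTOR**, closed. -/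
theorem iwAvgC_closed534 (K : Type) [Field K] [NumberField K] :
    Fermat.Agent.LT.T7.WB776.IwAvgC776 K :=
  Fermat.Agent.LT.T7.H75.iwAvgAsmC75 K (Fermat.Agent.LT.T1.t1Out K)
    (Fermat.Agent.LT.T7.H454.finDataAsmC454 K (Fermat.Agent.LT.T7.H543.hGroupC543 K)
      (Fermat.Agent.LT.T7.H981.finIndexC981 K))
    (Fermat.Agent.LT.T7.H547.finAvgCuspC547 K) (Fermat.Agent.LT.T7.H193.H387.finAvgOrthC387 K)
    (Fermat.Agent.LT.T7.H453.translInvC453 K) (Fermat.Agent.LT.T7.H385.finAvgPosC385 K)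
    (Fermat.Agent.LT.T7.H899.finAvgHeckeC899 K) (Fermat.Agent.LT.T7.H984.finAvgMeanC984 K)
    (Fermat.Agent.LT.T7.H76.cuspFormC76 K) (Fermat.Agent.LT.T7.H863.wSubC_863 K)

/-- **THE NODE T7.L2.3.5.4 `WBasisC`, CLOSED.** -/
theorem wBasisC_closed534 (K : Type) [Field K] [NumberField K] : WBasisC K :=
  Fermat.Agent.LT.T7.H389.wAsmC389 K
    (w0BasisC_of_v2Basis534 K (Fermat.Agent.LT.T7.H613.v2BasisC613 K)) (iwAvgC_closed534 K)
    Fermat.Agent.LT.T7.H860.projSeqC860 (Fermat.Agent.LT.T7.H76.cuspFormC76 K)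
    (Fermat.Agent.LT.T7.H863.wSubC_863 K)

/-- **THE NODE T7.L2.3 `SpecDownC`, CLOSED.** -/
theorem specDownC_closed534 (K K' : Type) [Field K] [NumberField K] [Field K']
    [NumberField K'] [Algebra K K'] : Fermat.Agent.LT.T7.SpecDownC K K' :=
  specDownC_of_wBasis534 K K' (wBasisC_closed534 K)

end Fermat.Agent.LT.T7.SD534

end
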